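import Fermat.Agent.S14.SI.LocalNormProper
import Fermat.Agent.S14.SI.TameNonNorm
import Fermat.Agent.F4.Glob.NormDefs

/-!
# F4 / GLOB : the local norm group at a non-split prime is proper (D7)

`M/F` Galois of prime degree `p`, `v` a prime of `F` which does not split completely in `M`.
Then `localNormGroup F M v k = N(Mˣ) · U_v^{(k+1)}` is a proper subgroup of `Fˣ`

* if `v` is unramified in `M` (a uniformizer is not a local norm), any `v`, any `k`;
* if there is a `v`-unit which is not a `p`-th power residue (e.g. `v ∤ p` and `ζ_p ∈ F`).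

The remaining case (`v ∣ p` ramified) is the local input `WildNormProper` (LOC).
-/

set_option autoImplicit false

open NumberField IsDedekindDomain

namespace Fermat.Agent.F4G

open Fermat.Agent.S14SI

variable {F M : Type} [Field F] [NumberField F] [Field M] [NumberField M] [Algebra F M]

omit [NumberField M] in
/-- A local norm to precision `k` is a local norm in the sense of `S14SI.IsLocalNormAt`. -/
lemma isLocalNormAt_of_mem_localNormGroup {v : HeightOneSpectrum (𝓞 F)} (p : ℕ) {k : ℕ} {y : Fˣ}
    (hy : y ∈ localNormGroup F M v k) : IsLocalNormAt F M v p (y : F) := by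
  obtain ⟨z, hz⟩ := mem_localNormGroup.mp hy
  rw [mem_oneModSubgroup] at hz
  have hle : WithZero.exp (-(k : ℤ)) ≤ (1 : WithZero (Multiplicative ℤ)) := by
    rw [← WithZero.exp_zero]
    exact WithZero.exp_le_exp.mpr (by omega)
  refine ⟨(z : M), z.ne_zero, 1, ?_, ?_⟩
  · exact fun h => v.isPrime.ne_top ((Ideal.eq_top_iff_one _).mpr h)
  · have e : (y : F) * (Algebra.norm F (z : M))⁻¹ - ((1 : 𝓞 F) : F) ^ p
        = ((y / normUnits F M z : Fˣ) : F) - 1 := by
      rw [Units.val_div_eq_div_val, div_eq_mul_inv]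
      simp [normUnits]
    rw [e]
    exact lt_of_lt_of_le hz hle

variable [IsGalois F M]

/-- The local norm group at a non-split prime is proper if there is a `v`-unit which is not a
`p`-th power residue. -/
theorem localNormGroup_ne_top_of_not_isPowMod {p : ℕ} (hp : p.Prime)
    (hdeg : Module.finrank F M = p) {v : HeightOneSpectrum (𝓞 F)}
    (hns : ¬ SplitsCompletely F M v) {u : F} (hu : v.valuation F u = 1)
    (hnp : ¬ IsPowMod F v p u) (k : ℕ) : localNormGroup F M v k ≠ ⊤ := by
  intro htop
  obtain ⟨π, hπ⟩ := v.valuation_exists_uniformizer F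
  have hπ0 : π ≠ 0 := by
    rintro rfl
    rw [map_zero] at hπ
    exact WithZero.exp_ne_zero hπ.symm
  have hu0 : u ≠ 0 := by
    rintro rfl
    simp at hu
  have hNy : IsLocalNormAt F M v p π :=
    isLocalNormAt_of_mem_localNormGroup (y := Units.mk0 π hπ0) p (k := k) (by rw [htop]; trivial)
  have hNu : IsLocalNormAt F M v p u :=
    isLocalNormAt_of_mem_localNormGroup (y := Units.mk0 u hu0) p (k := k) (by rw [htop]; trivial)
  obtain ⟨w, hw⟩ := exists_primeBelow_eq (M := M) v
  have hlo : w.asIdeal.LiesOver v.asIdeal := ⟨by rw [← hw]; rfl⟩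
  have hdvd := td_dvd_ram hp hdeg hns w hπ hNy
  have hef := td_ram_mul_inertia hp hdeg hns w
  have hf : w.asIdeal.inertiaDeg (𝓞 F) = 1 := by
    obtain ⟨j, hj⟩ := hdvd
    rw [hj, mul_assoc] at hef
    have h1 : j * w.asIdeal.inertiaDeg (𝓞 F) = 1 := by
      have := hp.pos
      exact Nat.eq_of_mul_eq_mul_left this (by rw [hef, mul_one])
    exact Nat.eq_one_of_mul_eq_one_left h1
  exact hnp (td_isPowMod_of_inertiaDeg hp hdeg hns w hf hu hNu)

/-- The local norm group at a non-split prime `v ∤ p` is proper when `ζ_p ∈ F`. -/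
theorem localNormGroup_ne_top_of_primitiveRoot {p : ℕ} (hp : p.Prime)
    (hdeg : Module.finrank F M = p) {v : HeightOneSpectrum (𝓞 F)}
    (hns : ¬ SplitsCompletely F M v) {ζ : F} (hζ : IsPrimitiveRoot ζ p)
    (hv : (p : 𝓞 F) ∉ v.asIdeal) (k : ℕ) : localNormGroup F M v k ≠ ⊤ := by
  obtain ⟨c, hc, hcp⟩ := exists_not_isPowMod v hp hζ hv
  have hcu : v.valuation F (c : F) = 1 := by
    refine le_antisymm (v.valuation_le_one c) ?_
    by_contra hlt
    exact hc ((v.valuation_lt_one_iff_mem (K := F) c).mp (not_le.mp hlt))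
  exact localNormGroup_ne_top_of_not_isPowMod hp hdeg hns hcu hcp k

/-- The local norm group at an unramified non-split (= inert) prime is proper: a uniformizer is
not a local norm. -/
theorem localNormGroup_ne_top_of_unramified {p : ℕ} (hp : p.Prime)
    (hdeg : Module.finrank F M = p) {v : HeightOneSpectrum (𝓞 F)}
    (hns : ¬ SplitsCompletely F M v) (w : HeightOneSpectrum (𝓞 M))
    (hw : primeBelow (F := F) w = v) (he : w.asIdeal.ramificationIdx (𝓞 F) = 1) (k : ℕ) :
    localNormGroup F M v k ≠ ⊤ := by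
  intro htop
  obtain ⟨π, hπ⟩ := v.valuation_exists_uniformizer F
  have hπ0 : π ≠ 0 := by
    rintro rfl
    rw [map_zero] at hπ
    exact WithZero.exp_ne_zero hπ.symm
  have hNy : IsLocalNormAt F M v p π :=
    isLocalNormAt_of_mem_localNormGroup (y := Units.mk0 π hπ0) p (k := k) (by rw [htop]; trivial)
  have hlo : w.asIdeal.LiesOver v.asIdeal := ⟨by rw [← hw]; rfl⟩
  have hdvd := td_dvd_ram hp hdeg hns w hπ hNy
  rw [Ideal.ramificationIdx'_eq_ramificationIdx v.asIdeal w.asIdeal v.ne_bot, he] at hdvd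
  exact hp.one_lt.ne' (Nat.dvd_one.mp hdvd)

end Fermat.Agent.F4G
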