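import Fermat.Agent.F4.Glob.Interface
import Fermat.Agent.F4.Glob.LocalProper
import Fermat.Agent.F4.Loc.NormIndex
import Fermat.Agent.F4.Loc.NormIdx.Trunc

/-!
# F4 / GLOB : `LocalNormProperAll` (helper91)

For a Galois extension `M/F` of number fields of prime degree `p` and a prime `v` of `F` which
does not split completely, the local norm group `N(Mˣ) · U_v^{(k+1)}` is proper for `k` large:
inert, tamely ramified and wildly ramified primes alike.

Proof: the unique prime `w` above `v` gives a Galois-invariant valuation of `M`; this is an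
`NIBase` (no Hensel's lemma needed), and `NILattice.exists_not_mem_norm_mul_V` (the Herbrand
quotient of `Mˣ / V₀` is `p`, Hilbert 90 inside `V₀`) produces `y ∈ Fˣ` outside `N(Mˣ) · V₀`;
`U_v^{(k+1)} ⊆ V₀` for `k` large.
-/

set_option autoImplicit false
set_option linter.unusedSectionVars false

open NumberField IsDedekindDomain

namespace Fermat.Agent.F4G

open Fermat.Agent.S14SI Fermat.Agent.F4Loc Fermat.Agent.F4.Loc

section reps

variable {F : Type*} [Field F] [NumberField F]

/-- Finitely many representatives of the residue field of `v`, for the elements of `F`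
integral at `v`. -/
lemma lpa_exists_reps (v : HeightOneSpectrum (𝓞 F)) :
    ∃ R : Finset F, ∀ x : F, v.valuation F x ≤ 1 → ∃ r ∈ R, v.valuation F (x - r) < 1 := by
  classical
  have hfin : Finite (𝓞 F ⧸ v.asIdeal) := Ideal.finiteQuotientOfFreeOfNeBot v.asIdeal v.ne_bot
  cases nonempty_fintype (𝓞 F ⧸ v.asIdeal)
  have hmax : v.asIdeal.IsMaximal := v.isMaximal
  set ι := algebraMap (𝓞 F) F with hι
  set rep : 𝓞 F → 𝓞 F := fun a => Quotient.out (Ideal.Quotient.mk v.asIdeal a) with hrep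
  have hA : ∀ a : 𝓞 F, v.valuation F (ι a - ι (rep a)) < 1 := by
    intro a
    have h1 : a - rep a ∈ v.asIdeal := by
      rw [← Ideal.Quotient.eq]
      exact (Ideal.Quotient.mk_out _).symm
    have h2 : v.valuation F (ι (a - rep a)) < 1 :=
      (v.valuation_lt_one_iff_mem (K := F) (a - rep a)).mpr h1
    rwa [map_sub] at h2
  refine ⟨Finset.univ.image (fun c : 𝓞 F ⧸ v.asIdeal => ι (Quotient.out c)),
    fun x hx => ?_⟩
  have hmemR : ∀ a : 𝓞 F, ι (rep a) ∈
      Finset.univ.image (fun c : 𝓞 F ⧸ v.asIdeal => ι (Quotient.out c)) := fun a =>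
    Finset.mem_image.mpr ⟨Ideal.Quotient.mk v.asIdeal a, Finset.mem_univ _, rfl⟩
  -- it suffices to approximate `x` by an integer
  suffices h : ∃ a : 𝓞 F, v.valuation F (x - ι a) < 1 by
    obtain ⟨a, ha⟩ := h
    refine ⟨_, hmemR a, ?_⟩
    have e : x - ι (rep a) = (x - ι a) + (ι a - ι (rep a)) := by ring
    rw [e]
    exact lt_of_le_of_lt (Valuation.map_add _ _ _) (max_lt ha (hA a))
  rcases lt_or_eq_of_le hx with hlt | heq
  · exact ⟨0, by rw [map_zero, sub_zero]; exact hlt⟩
  · obtain ⟨n, d, -, hd, hnd⟩ := exists_div_of_valuation_eq_one v heq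
    have hnd' : x * ι d = ι n := hnd
    obtain ⟨y, i, hi, hyi⟩ := hmax.exists_inv hd
    refine ⟨n * y, ?_⟩
    have e : x - ι (n * y) = x * ι i := by
      have h1 : ι y * ι d + ι i = 1 := by
        rw [← map_mul, ← map_add, hyi, map_one]
      rw [map_mul]
      linear_combination ι y * hnd' - x * h1
    rw [e, Valuation.map_mul, heq, one_mul]
    exact (v.valuation_lt_one_iff_mem (K := F) i).mpr hi

end reps

section unif

variable {F M : Type*} [Field F] [NumberField F] [Field M] [NumberField M] [Algebra F M]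

/-- the restriction to `F` of the `w`-adic valuation is a power of the `v`-adic one. -/
lemma lpa_resVal (v : HeightOneSpectrum (𝓞 F)) (w : HeightOneSpectrum (𝓞 M))
    [w.asIdeal.LiesOver v.asIdeal] (x : F) :
    resVal F (w.valuation M) x = v.valuation F x ^ v.asIdeal.ramificationIdx' w.asIdeal :=
  (HeightOneSpectrum.valuation_liesOver M v w x).symm

lemma lpa_ram_ne_zero (v : HeightOneSpectrum (𝓞 F)) (w : HeightOneSpectrum (𝓞 M))
    [w.asIdeal.LiesOver v.asIdeal] : v.asIdeal.ramificationIdx' w.asIdeal ≠ 0 :=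
  Ideal.IsDedekindDomain.ramificationIdx'_ne_zero_of_liesOver w.asIdeal v.ne_bot

lemma lpa_resVal_le_one (v : HeightOneSpectrum (𝓞 F)) (w : HeightOneSpectrum (𝓞 M))
    [w.asIdeal.LiesOver v.asIdeal] (x : F) :
    resVal F (w.valuation M) x ≤ 1 ↔ v.valuation F x ≤ 1 := by
  rw [lpa_resVal v w, pow_le_one_iff (lpa_ram_ne_zero v w)]

lemma lpa_resVal_lt_one (v : HeightOneSpectrum (𝓞 F)) (w : HeightOneSpectrum (𝓞 M))
    [w.asIdeal.LiesOver v.asIdeal] (x : F) :
    resVal F (w.valuation M) x < 1 ↔ v.valuation F x < 1 := by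
  rw [lpa_resVal v w, pow_lt_one_iff (lpa_ram_ne_zero v w)]

lemma lpa_isUnif (v : HeightOneSpectrum (𝓞 F)) (w : HeightOneSpectrum (𝓞 M))
    [w.asIdeal.LiesOver v.asIdeal] {π : F} (hπ : v.valuation F π = WithZero.exp (-1 : ℤ)) :
    IsUnif (resVal F (w.valuation M)) π := by
  have hπ0 : π ≠ 0 := by
    rintro rfl
    rw [map_zero] at hπ
    exact WithZero.exp_ne_zero hπ.symm
  have hvπ : v.valuation F π < 1 := by
    rw [hπ, ← WithZero.exp_zero]
    exact WithZero.exp_lt_exp.mpr (by norm_num)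
  refine ⟨hπ0, (lpa_resVal_lt_one v w π).mpr hvπ, fun x hx => ?_⟩
  have hvx : v.valuation F x ≠ 0 := (Valuation.ne_zero_iff _).mpr hx
  refine ⟨-(WithZero.log (v.valuation F x)), ?_⟩
  rw [lpa_resVal v w, lpa_resVal v w, hπ, ← zpow_natCast, ← zpow_natCast, ← zpow_mul, mul_comm,
    zpow_mul]
  congr 1
  rw [← WithZero.exp_zsmul, smul_eq_mul, neg_mul_neg, mul_one, WithZero.exp_log hvx]

lemma lpa_hasFiniteResidue (v : HeightOneSpectrum (𝓞 F)) (w : HeightOneSpectrum (𝓞 M))
    [w.asIdeal.LiesOver v.asIdeal] : HasFiniteResidue (resVal F (w.valuation M)) := by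
  obtain ⟨R, hR⟩ := lpa_exists_reps v
  refine ⟨R, fun x hx => ?_⟩
  obtain ⟨r, hr, h⟩ := hR x ((lpa_resVal_le_one v w x).mp hx)
  exact ⟨r, hr, (lpa_resVal_lt_one v w _).mpr h⟩

end unif

/-- **`LocalNormProperAll`**: the local norm group at a prime which does not split completely in
a Galois extension of prime degree is proper (inert, tame and wild primes). -/
theorem localNormProperAll : LocalNormProperAll := by
  intro p F M _ _ _ _ _ _ v hp _ hdeg hns
  obtain ⟨w, hw⟩ := exists_primeBelow_eq (M := M) v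
  have hlo : w.asIdeal.LiesOver v.asIdeal := ⟨by rw [← hw]; rfl⟩
  obtain ⟨π, hπ⟩ := v.valuation_exists_uniformizer F
  have hinv : IsInvVal F (w.valuation M) := fun τ x => td_valuation_apply hp hdeg hns w hw τ x
  have hunif := lpa_isUnif v w hπ
  set S : NIBase F M := niBase (w.valuation M) hinv π hunif (lpa_hasFiniteResidue v w) with hS
  obtain ⟨Λ⟩ := S.exists_lattice
  have hp' : (Module.finrank F M).Prime := by rw [hdeg]; exact hp
  obtain ⟨y, hy⟩ := Λ.exists_not_mem_norm_mul_V hp' 0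
  -- precision
  obtain ⟨N, hN⟩ := S.exists_pow_mul_mem ((Λ.t₀ * π)⁻¹)
  have hN' : v.valuation F (π ^ N * (Λ.t₀ * π)⁻¹) ≤ 1 := (lpa_resVal_le_one v w _).mp hN
  have hπ0 : π ≠ 0 := hunif.1
  refine ⟨N, fun htop => ?_⟩
  have hymem : y ∈ localNormGroup F M v N := by rw [htop]; trivial
  obtain ⟨z, hz⟩ := mem_localNormGroup.mp hymem
  apply hy z
  rw [mem_oneModSubgroup] at hz
  -- `y / N z ∈ V 0`
  have e1 : unitsIncl F M y / normEndo F M z = unitsIncl F M (y / normUnits F M z) := by
    rw [map_div]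
    rfl
  rw [e1, NILattice.mem_V, coe_unitsIncl, Λ.P_algebraMap, NIBase.mem_I, NIBase.mem_OK]
  show algebraMap F M _ ∈ (w.valuation M).valuationSubring
  rw [Valuation.mem_valuationSubring_iff]
  set a : F := ((y / normUnits F M z : Fˣ) : F) with ha
  show resVal F (w.valuation M) ((a - 1) / Λ.t₀ / S.π ^ (0 + 1)) ≤ 1
  rw [lpa_resVal_le_one v w]
  have hSπ : S.π = π := rfl
  have e2 : (a - 1) / Λ.t₀ / S.π ^ (0 + 1) = ((a - 1) / π ^ N) * (π ^ N * (Λ.t₀ * π)⁻¹) := by
    rw [hSπ, zero_add, pow_one]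
    have ht := Λ.t₀_ne_zero
    field_simp
  rw [e2, Valuation.map_mul]
  refine mul_le_one' ?_ hN'
  rw [map_div₀, map_pow, hπ]
  have h3 : (WithZero.exp (-1 : ℤ)) ^ N = WithZero.exp (-(N : ℤ)) := by
    rw [← WithZero.exp_nsmul]
    congr 1
    simp
  rw [h3]
  exact (div_le_one₀ (zero_lt_iff.mpr WithZero.exp_ne_zero)).mpr hz.le

end Fermat.Agent.F4G
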