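import Fermat.Agent.F4.Glob.FirstIneqRay
import Fermat.Agent.F4.Glob.LocalProperAll
import Fermat.Agent.F4.Ray.Main

/-!
# F4 / GLOB : the first inequality in ray form, unconditional

`firstIneqRay : F4Rec.FirstIneqRay`, from `firstIneqRay_of`, the analytic second inequality
(`F4Ray.secondIneqRay`, through `secondIneqNorm_of`) and `localNormProperAll`.
-/

set_option autoImplicit false

namespace Fermat.Agent.F4G

/-- The finite-level norm form of the second inequality. -/
theorem secondIneqNorm_uncond : SecondIneqNorm := secondIneqNorm_of Fermat.Agent.F4Ray.secondIneqRay

/-- **First inequality, ray form with modulus supported on `T`** (unconditional). -/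
theorem firstIneqRay : Fermat.Agent.F4Rec.FirstIneqRay :=
  firstIneqRay_of secondIneqNorm_uncond localNormProperAll

end Fermat.Agent.F4G
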