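import Fermat.Agent.F4.Glob.FIRPrelim
import Fermat.Agent.F4.Glob.FirstIneqRayMain
import Fermat.Agent.Lib.KFin.Val

/-!
# F4 / GLOB : the Hasse norm theorem for elements of `Fˣ`, at finite level (helper56)

`M/F` Galois of odd prime degree `p`, unramified outside the finite set `T` of primes of `F`.
If `a ∈ Fˣ` is a local norm to every precision at every prime of `T`, and `p ∣ ord_v a` at every
non-split prime `v ∉ T`, then `a` is a norm from `M` (`hasseNormFull`).

Proof: enlarge `T` to a finite set `S ⊇ T ∪ supp(a)` generating the class groups of `F` and of `M`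
(`fir_exists_S`); then `a` is an `S`-unit, a local norm at all `v ∈ S` (ULN at the primes outside
`T`: `localNormGroup_eq_top_of_splitsCompletely`, `unit_mem_localNormGroup`), hence the norm of
an `S`-unit by `hasseNorm`.
-/

set_option autoImplicit false

open NumberField IsDedekindDomain

namespace Fermat.Agent.F4G

open Fermat.Agent.S14SI

variable {F M : Type} [Field F] [NumberField F] [Field M] [NumberField M] [Algebra F M]
  [IsGalois F M]

/-- **The Hasse norm theorem** (cyclic of odd prime degree), finite-level form, conditional on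
the second inequality and the properness of the local norm groups. -/
theorem hasseNormFull_of (h2 : SecondIneqNorm) (hP : LocalNormProperAll) {p : ℕ} (hp : p.Prime)
    (hp2 : p ≠ 2) (hdeg : Module.finrank F M = p) (T : Finset (HeightOneSpectrum (𝓞 F)))
    (hunr : ∀ w : HeightOneSpectrum (𝓞 M),
      w ∉ primesAboveSet F M (T : Set (HeightOneSpectrum (𝓞 F))) →
      w.asIdeal.ramificationIdx (𝓞 F) = 1)
    (a : Fˣ) (hT : ∀ v ∈ T, ∀ k : ℕ, a ∈ localNormGroup F M v k)
    (hout : ∀ v : HeightOneSpectrum (𝓞 F), v ∉ T → ¬ SplitsCompletely F M v →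
      ∃ n : ℤ, v.valuation F (a : F) = WithZero.exp ((p : ℤ) * n)) :
    a ∈ (normUnits F M).range := by
  classical
  have hfd : FiniteDimensional F M := by
    apply FiniteDimensional.of_finrank_pos
    rw [hdeg]; exact hp.pos
  -- the support of `a`
  have hfin := Fermat.Agent.KFin.finite_valuation_ne_one (K := F) a
  obtain ⟨S, hTS, hgen, hgenM⟩ := fir_exists_S (M := M) (T ∪ hfin.toFinset)
  obtain ⟨k, hk⟩ := fir_exists_k (F := F) (M := M) hP hp hp2 hdeg S
  have hT_S : T ⊆ S := Finset.subset_union_left.trans hTS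
  have hunrS : ∀ w : HeightOneSpectrum (𝓞 M),
      w ∉ primesAboveSet F M (S : Set (HeightOneSpectrum (𝓞 F))) →
      w.asIdeal.ramificationIdx (𝓞 F) = 1 := by
    intro w hw
    apply hunr w
    intro hwT
    apply hw
    rw [mem_primesAboveSet_iff] at hwT ⊢
    exact hT_S hwT
  -- `a` is an `S`-unit
  have haS : a ∈ sUnits F (S : Set (HeightOneSpectrum (𝓞 F))) := by
    rw [mem_sUnits]
    intro v hv
    by_contra hne
    apply hv
    apply hTS
    exact Finset.mem_union_right _ (hfin.mem_toFinset.2 hne)
  -- `a` is a local norm at every prime of `S`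
  have haL : a ∈ localNormsAt F M S k := by
    rw [mem_localNormsAt]
    intro v hv
    by_cases hvT : v ∈ T
    · exact hT v hvT k
    by_cases hsp : SplitsCompletely F M v
    · rw [localNormGroup_eq_top_of_splitsCompletely h2 hp hp2 hdeg S k hunrS hgen hgenM hk hv hsp]
      trivial
    · obtain ⟨n, hn⟩ := hout v hvT hsp
      obtain ⟨w, hw⟩ := exists_primeBelow_eq (M := M) v
      have he : w.asIdeal.ramificationIdx (𝓞 F) = 1 := by
        apply hunr w
        intro hwT
        rw [mem_primesAboveSet_iff, hw] at hwT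
        exact hvT hwT
      obtain ⟨π, hπ⟩ := v.valuation_exists_uniformizer F
      have hπ0 : π ≠ 0 := by
        rintro rfl
        rw [map_zero] at hπ
        exact WithZero.exp_ne_zero hπ.symm
      set πu : Fˣ := Units.mk0 π hπ0 with hπu
      -- `y = π ^ (-n)`, `v (y ^ p) = exp (p n)`
      set y : Fˣ := πu ^ (-n) with hy
      have hyp : v.valuation F ((y ^ p : Fˣ) : F) = WithZero.exp ((p : ℤ) * n) := by
        rw [hy, Units.val_pow_eq_pow_val, Units.val_zpow_eq_zpow_val, hπu, Units.val_mk0,
          map_pow, map_zpow₀, hπ, ← WithZero.exp_zsmul, ← WithZero.exp_nsmul]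
        congr 1
        simp only [smul_eq_mul, nsmul_eq_mul]
        ring
      have hunit : v.valuation F ((a / y ^ p : Fˣ) : F) = 1 := by
        rw [Units.val_div_eq_div_val, map_div₀, hn, hyp]
        exact div_self WithZero.exp_ne_zero
      have h1 : a / y ^ p ∈ localNormGroup F M v k :=
        unit_mem_localNormGroup h2 hp hp2 hdeg S k hunrS hgen hgenM hk hv hsp w hw he hunit
      have h2' : y ^ p ∈ localNormGroup F M v k := pow_mem_localNormGroup v k hdeg y
      have := Subgroup.mul_mem _ h1 h2'
      rwa [div_mul_cancel] at this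
  obtain ⟨z, -, hz⟩ := hasseNorm h2 hp hp2 hdeg S k hunrS hgen hgenM hk ⟨haS, haL⟩
  exact ⟨z, hz⟩

/-- **The Hasse norm theorem** (cyclic of odd prime degree), finite-level form, unconditional. -/
theorem hasseNormFull {p : ℕ} (hp : p.Prime) (hp2 : p ≠ 2) (hdeg : Module.finrank F M = p)
    (T : Finset (HeightOneSpectrum (𝓞 F)))
    (hunr : ∀ w : HeightOneSpectrum (𝓞 M),
      w ∉ primesAboveSet F M (T : Set (HeightOneSpectrum (𝓞 F))) →
      w.asIdeal.ramificationIdx (𝓞 F) = 1)
    (a : Fˣ) (hT : ∀ v ∈ T, ∀ k : ℕ, a ∈ localNormGroup F M v k)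
    (hout : ∀ v : HeightOneSpectrum (𝓞 F), v ∉ T → ¬ SplitsCompletely F M v →
      ∃ n : ℤ, v.valuation F (a : F) = WithZero.exp ((p : ℤ) * n)) :
    a ∈ (normUnits F M).range :=
  hasseNormFull_of secondIneqNorm_uncond localNormProperAll hp hp2 hdeg T hunr a hT hout

end Fermat.Agent.F4G
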