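import Fermat.Agent.F4.Glob.ULN
import Fermat.Agent.F4.Glob.RayBridge
import Fermat.Agent.F4.Recip.Statements
import Fermat.Agent.S14.SI.ExistsGoodS

/-!
# F4 / GLOB : first inequality in ray form — preliminaries

Inputs for `FirstIneqRay.lean`:

* `fir_ramificationIdx_eq_one` : `F4Rec.UnramOutside` gives ramification index `1` outside `T`;
* `fir_exists_S` : a finite `S ⊇ T` generating `Cl(F)`, whose primes above generate `Cl(M)`;
* `fir_exists_k` : a common precision `k` for the proper local norm groups at `S`;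
* `fir_dvd_count_relNorm` : at an inert prime `v`, `p ∣ ord_v (N A)`;
* `fir_count_eq_zero` : an ideal prime to `v` has `ord_v = 0`;
* `fir_exists_y` : elements `y_v` of valuation `exp (-1)` at `v`, `≡ 1` at the other primes of `S`.
-/

set_option autoImplicit false
set_option linter.unusedSectionVars false

open NumberField IsDedekindDomain FractionalIdeal
open scoped nonZeroDivisors

namespace Fermat.Agent.F4G

open Fermat.Agent.S14SI

variable {F M : Type} [Field F] [NumberField F] [Field M] [NumberField M] [Algebra F M]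

/-- `UnramOutside` in terms of ramification indices. -/
theorem fir_ramificationIdx_eq_one [IsGalois F M] {T : Finset (HeightOneSpectrum (𝓞 F))}
    (hT : F4Rec.UnramOutside F M T) (w : HeightOneSpectrum (𝓞 M))
    (hw : w ∉ primesAboveSet F M (T : Set (HeightOneSpectrum (𝓞 F)))) :
    w.asIdeal.ramificationIdx (𝓞 F) = 1 := by
  have hP : w.asIdeal.IsPrime := w.isPrime
  have hun : F4Rec.UnramAt F w.asIdeal := by
    refine hT w.asIdeal w.isPrime w.ne_bot ?_
    intro v hv h
    exact hw ⟨v, hv, h⟩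
  have hbot : Ideal.inertia (M ≃ₐ[F] M) w.asIdeal = ⊥ := by
    rw [eq_bot_iff]
    intro σ hσ
    rw [Subgroup.mem_bot]
    refine hun σ ?_
    intro x
    exact ⟨σ • x - x, hσ x, rfl⟩
  have h1 := Ideal.card_inertia_eq_ramificationIdxIn (G := M ≃ₐ[F] M)
    (w.asIdeal.under (𝓞 F)) w.asIdeal
  have h2 := Ideal.ramificationIdxIn_eq_ramificationIdx (w.asIdeal.under (𝓞 F)) w.asIdeal
    (M ≃ₐ[F] M)
  rw [← h2, ← h1, hbot]
  exact Nat.card_unique

/-- A finite set of primes `S ⊇ T` generating the class group of `F`, such that the primes of `M`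
above `S` generate the class group of `M`. -/
theorem fir_exists_S (T : Finset (HeightOneSpectrum (𝓞 F))) :
    ∃ S : Finset (HeightOneSpectrum (𝓞 F)), T ⊆ S ∧ GeneratesClassGroup F S ∧
      Subgroup.closure
        (primeClass M '' primesAboveSet F M (S : Set (HeightOneSpectrum (𝓞 F)))) = ⊤ := by
  classical
  obtain ⟨SM, -, hSM⟩ := existsGoodS M ∅
  obtain ⟨S, hBS, hS⟩ := existsGoodS F (T ∪ SM.image (primeBelow (F := F)))
  refine ⟨S, (Finset.subset_union_left).trans hBS, hS, ?_⟩
  rw [eq_top_iff]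
  have hSM' : Subgroup.closure (primeClass M '' (SM : Set (HeightOneSpectrum (𝓞 M)))) = ⊤ := hSM
  rw [← hSM']
  apply Subgroup.closure_mono
  apply Set.image_mono
  intro w hw
  rw [mem_primesAboveSet_iff]
  apply hBS
  exact Finset.mem_union_right _ (Finset.mem_image_of_mem _ hw)

/-- A common precision for the proper local norm groups. -/
theorem fir_exists_k [IsGalois F M] (hP : LocalNormProperAll) {p : ℕ} (hp : p.Prime)
    (hp2 : p ≠ 2) (hdeg : Module.finrank F M = p) (S : Finset (HeightOneSpectrum (𝓞 F))) :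
    ∃ k : ℕ, ∀ v ∈ S, ¬ SplitsCompletely F M v → localNormGroup F M v k ≠ ⊤ := by
  classical
  have h : ∀ v : HeightOneSpectrum (𝓞 F), ∃ k : ℕ,
      ¬ SplitsCompletely F M v → localNormGroup F M v k ≠ ⊤ := by
    intro v
    by_cases hv : SplitsCompletely F M v
    · exact ⟨0, fun h => absurd hv h⟩
    · obtain ⟨k, hk⟩ := hP p F M v hp hp2 hdeg hv
      exact ⟨k, fun _ => hk⟩
  choose kf hkf using h
  refine ⟨S.sup kf, fun v hv hns htop => hkf v hns ?_⟩
  exact top_le_iff.mp (htop ▸ localNormGroup_anti v (Finset.le_sup hv))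

/-- The relative norm of a prime. -/
lemma fir_relNorm_prime (w : HeightOneSpectrum (𝓞 M)) :
    Ideal.relNorm (𝓞 F) w.asIdeal =
      (primeBelow (F := F) w).asIdeal ^ (w.asIdeal.inertiaDeg (𝓞 F)) := by
  have := w.isMaximal
  have := (primeBelow (F := F) w).isMaximal
  have : w.asIdeal.LiesOver (primeBelow (F := F) w).asIdeal := ⟨rfl⟩
  exact Ideal.relNorm_eq_pow_of_isMaximal w.asIdeal (primeBelow (F := F) w).asIdeal

/-- At a non-split unramified prime `v`, `p` divides the order at `v` of the relative norm of an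
ideal. -/
theorem fir_dvd_count_relNorm [IsGalois F M] {p : ℕ} (hp : p.Prime)
    (hdeg : Module.finrank F M = p) {v : HeightOneSpectrum (𝓞 F)}
    (hns : ¬ SplitsCompletely F M v)
    (he : ∀ w : HeightOneSpectrum (𝓞 M), primeBelow (F := F) w = v →
      w.asIdeal.ramificationIdx (𝓞 F) = 1)
    (A : Ideal (𝓞 M)) (hA : A ≠ ⊥) :
    (p : ℤ) ∣ count F v ((Ideal.relNorm (𝓞 F) A : Ideal (𝓞 F)) : FractionalIdeal (𝓞 F)⁰ F) := by
  classical
  revert hA
  refine UniqueFactorizationMonoid.induction_on_prime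
    (P := fun A : Ideal (𝓞 M) => A ≠ ⊥ → (p : ℤ) ∣
      count F v ((Ideal.relNorm (𝓞 F) A : Ideal (𝓞 F)) : FractionalIdeal (𝓞 F)⁰ F)) A ?_ ?_ ?_
  · intro h
    exact absurd rfl h
  · intro x hx _
    have hx' : x = ⊤ := by
      rwa [Ideal.isUnit_iff] at hx
    subst hx'
    rw [Ideal.relNorm_top, coeIdeal_top, count_one]
    exact dvd_zero _
  · intro a P ha hP ih _
    have hP0 : P ≠ ⊥ := hP.ne_zero
    have hPprime : P.IsPrime := Ideal.isPrime_of_prime hP
    set w : HeightOneSpectrum (𝓞 M) := ⟨P, hPprime, hP0⟩ with hw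
    have hrP : Ideal.relNorm (𝓞 F) P ≠ ⊥ := by
      rw [Ne, Ideal.relNorm_eq_bot_iff]; exact hP0
    have hra : Ideal.relNorm (𝓞 F) a ≠ ⊥ := by
      rw [Ne, Ideal.relNorm_eq_bot_iff]; exact ha
    rw [map_mul, coeIdeal_mul, count_mul F v (coeIdeal_ne_zero.mpr hrP) (coeIdeal_ne_zero.mpr hra)]
    refine dvd_add ?_ (ih ha)
    have h1 : Ideal.relNorm (𝓞 F) P =
        (primeBelow (F := F) w).asIdeal ^ (w.asIdeal.inertiaDeg (𝓞 F)) := fir_relNorm_prime w
    rw [h1, coeIdeal_pow, count_pow]
    by_cases hwv : primeBelow (F := F) w = v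
    · have hlo : w.asIdeal.LiesOver v.asIdeal := ⟨by rw [← hwv]; rfl⟩
      have hef := td_ram_mul_inertia hp hdeg hns w
      rw [Ideal.ramificationIdx'_eq_ramificationIdx v.asIdeal w.asIdeal v.ne_bot, he w hwv,
        one_mul] at hef
      rw [hef]
      exact Dvd.intro _ rfl
    · rw [count_maximal_coprime F v hwv, mul_zero]
      exact dvd_zero _

omit [NumberField F] in
/-- An integral ideal prime to `v` has order `0` at `v`. -/
theorem fir_count_eq_zero {R : Type*} [CommRing R] [IsDedekindDomain R] (K : Type*) [Field K]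
    [Algebra R K] [IsFractionRing R K] {I : Ideal R} (hI : I ≠ ⊥) (v : HeightOneSpectrum R)
    (h : I ⊔ v.asIdeal = ⊤) : count K v (I : FractionalIdeal R⁰ K) = 0 := by
  classical
  by_contra hne
  rw [count_coe K v hI] at hne
  have hne' : (Associates.mk v.asIdeal).count (Associates.mk I).factors ≠ 0 := by
    exact_mod_cast hne
  have hdvd : v.asIdeal ∣ I :=
    (Associates.count_ne_zero_iff_dvd hI v.irreducible).mp hne'
  have hle : I ≤ v.asIdeal := Ideal.le_of_dvd hdvd
  rw [sup_eq_right.mpr hle] at h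
  exact v.isPrime.ne_top h

/-- Elements of valuation `exp (-1)` at `v` which are `≡ 1` at the other primes of `S`. -/
theorem fir_exists_y [DecidableEq (HeightOneSpectrum (𝓞 F))]
    (S : Finset (HeightOneSpectrum (𝓞 F))) (k : ℕ) (v : HeightOneSpectrum (𝓞 F))
    (hv : v ∈ S) :
    ∃ y : Fˣ, v.valuation F (y : F) = WithZero.exp (-1 : ℤ) ∧
      ∀ v' ∈ S, v' ≠ v → y ∈ oneModSubgroup F v' k := by
  obtain ⟨π, hπ⟩ := v.valuation_exists_uniformizer F
  have hπ0 : π ≠ 0 := by
    rintro rfl
    rw [map_zero] at hπ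
    exact WithZero.exp_ne_zero hπ.symm
  obtain ⟨y, hy⟩ := exists_approx S (fun v' => if v' = v then Units.mk0 π hπ0 else 1) k
  refine ⟨y, ?_, fun v' hv' hne => ?_⟩
  · have h1 := hy v hv
    simp only [if_true] at h1
    have h2 := valuation_eq_one_of_mem_oneModSubgroup h1
    rw [Units.val_div_eq_div_val, map_div₀, Units.val_mk0, hπ] at h2
    exact (div_eq_one_iff_eq WithZero.exp_ne_zero).mp h2
  · have h1 := hy v' hv'
    simpa only [if_neg hne, _root_.div_one] using h1

end Fermat.Agent.F4G
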