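import Fermat.Agent.S14.SI.TameHerbrand
import Fermat.Agent.S14.SI.TameH1
import Fermat.Agent.F4.Glob.NormDefs

/-!
# F4 / GLOB : the norm index of the `S`-units (D1)

For `M/F` Galois of odd prime degree `p`, unramified outside the finite set `S` which generates
the class group of `F`:  `[E_S : N E_{M,S}] * p = p ^ t`, `t` the number of primes of `S` which do
not split completely in `M`.  (Herbrand quotient `TameHerbrand` + `H¹(G, E_{M,S}) = 1`, `TameH1`.)
-/

set_option autoImplicit false

open NumberField IsDedekindDomain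

namespace Fermat.Agent.F4G

open Fermat.Agent.S14SI

variable {F M : Type} [Field F] [NumberField F] [Field M] [NumberField M] [Algebra F M]
  [IsGalois F M]

/-- A Galois extension of prime degree has a nontrivial automorphism. -/
lemma exists_gal_ne_one {p : ℕ} (hp : p.Prime) (hdeg : Module.finrank F M = p) :
    ∃ σ : M ≃ₐ[F] M, σ ≠ 1 := by
  have hcard : Nat.card (M ≃ₐ[F] M) = p := by rw [IsGalois.card_aut_eq_finrank, hdeg]
  have hfin : Finite (M ≃ₐ[F] M) :=
    Nat.finite_of_card_ne_zero (by rw [hcard]; exact hp.ne_zero)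
  have : Nontrivial (M ≃ₐ[F] M) :=
    Finite.one_lt_card_iff_nontrivial.mp (by rw [hcard]; exact hp.one_lt)
  exact exists_ne 1

/-- The norm of an `S`-unit of `M` is an `S`-unit of `F`. -/
theorem normUnits_mem_sUnits {p : ℕ} (hp : p.Prime) (hdeg : Module.finrank F M = p)
    (S : Set (HeightOneSpectrum (𝓞 F))) {z : Mˣ} (hz : z ∈ sUnits M (primesAboveSet F M S)) :
    normUnits F M z ∈ sUnits F S := by
  obtain ⟨σ, hσ⟩ := exists_gal_ne_one (F := F) (M := M) hp hdeg
  rw [← Fermat.Agent.S14TH.inclU_mem_sUnits_iff (F := F) (M := M),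
    Fermat.Agent.S14TH.inclU_normUnits hp hdeg σ hσ, Fermat.Agent.Herbrand.normHom_apply]
  have hiter : ∀ i : ℕ, (Fermat.Agent.S14TH.actU σ)^[i] z ∈ sUnits M (primesAboveSet F M S) := by
    intro i
    induction i with
    | zero => simpa using hz
    | succ i ih =>
      rw [Function.iterate_succ_apply']
      exact Fermat.Agent.S14TH.map_mem_sUnits σ S _ ih
  exact Subgroup.prod_mem _ fun i _ => hiter i

/-- `N E_{M,S} ≤ E_S`. -/
theorem map_normUnits_sUnits_le {p : ℕ} (hp : p.Prime) (hdeg : Module.finrank F M = p)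
    (S : Set (HeightOneSpectrum (𝓞 F))) :
    (sUnits M (primesAboveSet F M S)).map (normUnits F M) ≤ sUnits F S := by
  rintro _ ⟨z, hz, rfl⟩
  exact normUnits_mem_sUnits hp hdeg S hz

/-- **(D1) the norm index of the `S`-units**: `[E_S : N E_{M,S}] * p = p ^ t`. -/
theorem sUnits_norm_relIndex {p : ℕ} (hp : p.Prime) (hp2 : p ≠ 2)
    (hdeg : Module.finrank F M = p) (S : Set (HeightOneSpectrum (𝓞 F))) (hS : S.Finite)
    (hunr : ∀ w : HeightOneSpectrum (𝓞 M), w ∉ primesAboveSet F M S →
      w.asIdeal.ramificationIdx (𝓞 F) = 1)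
    (hgen : Subgroup.closure (primeClass F '' S) = ⊤) :
    ((sUnits M (primesAboveSet F M S)).map (normUnits F M)).relIndex (sUnits F S) * p =
      p ^ {v | v ∈ S ∧ ¬ SplitsCompletely F M v}.ncard := by
  obtain ⟨σ, hσ⟩ := exists_gal_ne_one (F := F) (M := M) hp hdeg
  obtain ⟨-, -, hH⟩ := tameHerbrand_uncond p F M σ S hp hp2 hdeg hσ hS
  have hH1 := tameH1 p F M σ S hp hdeg hσ hS hunr hgen
  rw [Subgroup.relIndex_eq_one.mpr hH1, mul_one] at hH
  exact hH

/-- The norm index of the `S`-units is finite. -/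
theorem sUnits_norm_relIndex_ne_zero {p : ℕ} (hp : p.Prime) (hp2 : p ≠ 2)
    (hdeg : Module.finrank F M = p) (S : Set (HeightOneSpectrum (𝓞 F))) (hS : S.Finite) :
    ((sUnits M (primesAboveSet F M S)).map (normUnits F M)).relIndex (sUnits F S) ≠ 0 := by
  obtain ⟨σ, hσ⟩ := exists_gal_ne_one (F := F) (M := M) hp hdeg
  exact (tameHerbrand_uncond p F M σ S hp hp2 hdeg hσ hS).1

/-- A finite set of primes which generates the class group and contains the ramified primes
contains a prime which does not split completely. -/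
theorem exists_not_splitsCompletely {p : ℕ} (hp : p.Prime) (hp2 : p ≠ 2)
    (hdeg : Module.finrank F M = p) (S : Set (HeightOneSpectrum (𝓞 F))) (hS : S.Finite)
    (hunr : ∀ w : HeightOneSpectrum (𝓞 M), w ∉ primesAboveSet F M S →
      w.asIdeal.ramificationIdx (𝓞 F) = 1)
    (hgen : Subgroup.closure (primeClass F '' S) = ⊤) :
    ∃ v ∈ S, ¬ SplitsCompletely F M v := by
  by_contra hcon
  simp only [not_exists, not_and, not_not] at hcon
  have h := sUnits_norm_relIndex hp hp2 hdeg S hS hunr hgen
  have hempty : {v | v ∈ S ∧ ¬ SplitsCompletely F M v} = ∅ := by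
    ext v
    simp only [Set.mem_ofPred_eq, Set.mem_empty_iff_false, iff_false, not_and, not_not]
    exact hcon v
  rw [hempty, Set.ncard_empty, pow_zero] at h
  exact hp.one_lt.ne' (Nat.eq_one_of_mul_eq_one_left h)

end Fermat.Agent.F4G
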