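import Fermat.Agent.S14.SI.Tame
import Fermat.Agent.F4.Glob.SUnitNorm
import Fermat.Agent.F4.Glob.Approx

/-!
# F4 / GLOB : the first inequality at finite level (D4)

`M/F` Galois of odd prime degree `p`, unramified outside the finite set `S` of primes of `F`, which
generates the class group of `F`.  If for every `v ∈ S` which does not split completely the local
norm group `N(Mˣ) · U_v^{(k+1)}` is proper, then

    E_S · (local norms to precision `k` at all `v ∈ S`)  ≠  Fˣ,

i.e. the norm index `[C_S(F) : N C_S(M)]` is at least `p`.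

Proof: `[E_S : N E_{M,S}] = p ^ (t - 1)` (D1), `[Fˣ : L] ≥ p ^ t` for `L` the local norms at the
`t` non-split primes of `S` (chain argument + weak approximation), and `N E_{M,S} ⊆ E_S ∩ L`.
-/

set_option autoImplicit false

open NumberField IsDedekindDomain

namespace Fermat.Agent.F4G

open Fermat.Agent.S14SI

section Chain

/-- The chain argument: if every `L i`, `i ∈ R`, contains the `p`-th powers of `E` and for every
`i ∈ R` there is an element of `E` which is not in `L i` but is in all the other `L j`, then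
`p ^ |R|` divides the index in `E` of the intersection of the `L i`. -/
lemma pow_card_dvd_relIndex_finsetInf {G ι : Type*} [CommGroup G] [DecidableEq ι] {p : ℕ}
    (hp : p.Prime) (E : Subgroup G) (L : ι → Subgroup G) (R : Finset ι)
    (hpow : ∀ i ∈ R, ∀ g ∈ E, g ^ p ∈ L i)
    (hfin : (R.inf L).relIndex E ≠ 0)
    (hy : ∀ i ∈ R, ∃ y : G, y ∈ E ∧ y ∉ L i ∧ ∀ j ∈ R, j ≠ i → y ∈ L j) :
    p ^ R.card ∣ (R.inf L).relIndex E := by
  induction R using Finset.induction_on with
  | empty => simp
  | insert v R hvR ih =>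
    rw [Finset.card_insert_of_notMem hvR, Finset.inf_insert, pow_succ, mul_comm]
    rw [Finset.inf_insert] at hfin
    set W := R.inf L with hW
    rw [← Subgroup.relIndex_inf_mul_relIndex] at hfin ⊢
    have hfin1 : (L v).relIndex (W ⊓ E) ≠ 0 := left_ne_zero_of_mul hfin
    have hfin2 : W.relIndex E ≠ 0 := right_ne_zero_of_mul hfin
    refine mul_dvd_mul ?_ (ih (fun i hi => hpow i (Finset.mem_insert_of_mem hi)) hfin2 ?_)
    · obtain ⟨y, hyE, hyv, hyR⟩ := hy v (Finset.mem_insert_self v R)
      have hyW : y ∈ W := by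
        rw [hW]
        exact mem_finset_inf_subgroup.mpr fun v' hv' =>
          hyR v' (Finset.mem_insert_of_mem hv') (fun h => hvR (h ▸ hv'))
      exact prime_dvd_relIndex_of_pow_mem _ _ hp hfin1 (Subgroup.mem_inf.mpr ⟨hyW, hyE⟩) hyv
        (fun g hg => hpow v (Finset.mem_insert_self v R) g (Subgroup.mem_inf.mp hg).2)
    · intro v' hv'
      obtain ⟨y, hyE, hyv, hyR⟩ := hy v' (Finset.mem_insert_of_mem hv')
      exact ⟨y, hyE, hyv, fun v'' hv'' hne => hyR v'' (Finset.mem_insert_of_mem hv'') hne⟩

end Chain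

variable {F M : Type} [Field F] [NumberField F] [Field M] [NumberField M] [Algebra F M]

omit [NumberField M] in
/-- Independence of the local norm conditions (weak approximation): for `v ∈ R` with proper local
norm group there is an element which is not a local norm at `v` and is a local norm at all other
primes of `R`. -/
lemma exists_not_mem_localNormGroup [DecidableEq (HeightOneSpectrum (𝓞 F))]
    (R : Finset (HeightOneSpectrum (𝓞 F))) (k : ℕ)
    {v : HeightOneSpectrum (𝓞 F)} (hv : v ∈ R) (hprop : localNormGroup F M v k ≠ ⊤) :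
    ∃ y : Fˣ, y ∉ localNormGroup F M v k ∧
      ∀ v' ∈ R, v' ≠ v → y ∈ localNormGroup F M v' k := by
  obtain ⟨y₀, hy₀⟩ : ∃ y₀ : Fˣ, y₀ ∉ localNormGroup F M v k := by
    by_contra hcon
    simp only [not_exists, not_not] at hcon
    exact hprop (top_le_iff.mp fun y _ => hcon y)
  obtain ⟨y, hy⟩ := exists_approx R (fun v' => if v' = v then y₀ else 1) k
  refine ⟨y, fun hyv => hy₀ ?_, fun v' hv' hne => ?_⟩
  · have h1 := hy v hv
    simp only [if_true] at h1
    have h2 : y / y₀ ∈ localNormGroup F M v k := oneModSubgroup_le_localNormGroup v k h1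
    have h3 : y₀ = y * (y / y₀)⁻¹ := by
      rw [inv_div, mul_div_cancel]
    rw [h3]
    exact Subgroup.mul_mem _ hyv (Subgroup.inv_mem _ h2)
  · have h1 := hy v' hv'
    simp only [if_neg hne, div_one] at h1
    exact oneModSubgroup_le_localNormGroup v' k h1

/-- `p ^ |R|` divides the index of the group of local norms at `R`, if all the local norm groups
at the primes of `R` are proper (and the index is finite). -/
lemma pow_card_dvd_index_localNormsAt [FiniteDimensional F M] {p : ℕ} (hp : p.Prime)
    (hdeg : Module.finrank F M = p) (R : Finset (HeightOneSpectrum (𝓞 F))) (k : ℕ)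
    (hprop : ∀ v ∈ R, localNormGroup F M v k ≠ ⊤) (hfin : (localNormsAt F M R k).index ≠ 0) :
    p ^ R.card ∣ (localNormsAt F M R k).index := by
  classical
  rw [← Subgroup.relIndex_top_right] at hfin ⊢
  refine pow_card_dvd_relIndex_finsetInf hp ⊤ (fun v => localNormGroup F M v k) R
    (fun v _ g _ => pow_mem_localNormGroup v k hdeg g) hfin ?_
  intro v hv
  obtain ⟨y, hy1, hy2⟩ := exists_not_mem_localNormGroup (M := M) R k hv (hprop v hv)
  exact ⟨y, Subgroup.mem_top y, hy1, hy2⟩

variable [IsGalois F M]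

/-- **(D4) the first inequality at finite level**: the norm index is at least `p`. -/
theorem firstIneq_norm {p : ℕ} (hp : p.Prime) (hp2 : p ≠ 2) (hdeg : Module.finrank F M = p)
    (S : Finset (HeightOneSpectrum (𝓞 F))) (k : ℕ)
    (hunr : ∀ w : HeightOneSpectrum (𝓞 M),
      w ∉ primesAboveSet F M (S : Set (HeightOneSpectrum (𝓞 F))) →
      w.asIdeal.ramificationIdx (𝓞 F) = 1)
    (hgen : GeneratesClassGroup F S)
    (hprop : ∀ v ∈ S, ¬ SplitsCompletely F M v → localNormGroup F M v k ≠ ⊤) :
    sUnits F (S : Set (HeightOneSpectrum (𝓞 F))) ⊔ localNormsAt F M S k ≠ ⊤ := by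
  classical
  intro htop
  have : FiniteDimensional F M := by
    apply FiniteDimensional.of_finrank_pos
    rw [hdeg]; exact hp.pos
  set E := sUnits F (S : Set (HeightOneSpectrum (𝓞 F))) with hE
  set NE := (sUnits M (primesAboveSet F M (S : Set (HeightOneSpectrum (𝓞 F))))).map
    (normUnits F M) with hNE
  set T0 := S.filter (fun v => ¬ SplitsCompletely F M v) with hT0
  set W := localNormsAt F M T0 k with hW
  have hLW : localNormsAt F M S k ≤ W := fun y hy =>
    mem_localNormsAt.mpr fun v hv => mem_localNormsAt.mp hy v (Finset.mem_filter.mp hv).1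
  have hEW : E ⊔ W = ⊤ := top_le_iff.mp (htop ▸ sup_le_sup_left hLW E)
  -- D1
  have hD1 := sUnits_norm_relIndex hp hp2 hdeg (S : Set (HeightOneSpectrum (𝓞 F)))
    S.finite_toSet hunr hgen
  have ht : {v | v ∈ (S : Set (HeightOneSpectrum (𝓞 F))) ∧ ¬ SplitsCompletely F M v}.ncard
      = T0.card := by
    have : {v | v ∈ (S : Set (HeightOneSpectrum (𝓞 F))) ∧ ¬ SplitsCompletely F M v} = ↑T0 := by
      ext v
      simp [hT0]
    rw [this, Set.ncard_coe_finset]
  rw [ht] at hD1
  have hNE0 : NE.relIndex E ≠ 0 := sUnits_norm_relIndex_ne_zero hp hp2 hdeg _ S.finite_toSet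
  have hNW : NE ≤ W := by
    rintro y ⟨z, -, rfl⟩
    exact normUnits_mem_localNormsAt T0 k z
  have hdvd : W.relIndex E ∣ NE.relIndex E := Subgroup.relIndex_dvd_of_le_left E hNW
  have hWE : W.relIndex E ≠ 0 := fun h => hNE0 (by
    rw [h] at hdvd; exact zero_dvd_iff.mp hdvd)
  have hWtop : W.relIndex ⊤ = W.relIndex E := by
    rw [← hEW, Subgroup.relIndex_sup_right]
  have hchain : p ^ T0.card ∣ W.relIndex ⊤ := by
    rw [Subgroup.relIndex_top_right]
    refine pow_card_dvd_index_localNormsAt hp hdeg T0 k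
      (fun v hv => hprop v (Finset.mem_filter.mp hv).1 (Finset.mem_filter.mp hv).2) ?_
    rw [← Subgroup.relIndex_top_right, hWtop]
    exact hWE
  rw [hWtop] at hchain
  obtain ⟨j, hj⟩ := hchain.trans hdvd
  rw [hj] at hD1
  have hjp : j * p = 1 := by
    have hpos : 0 < p ^ T0.card := pow_pos hp.pos _
    apply Nat.eq_of_mul_eq_mul_left hpos
    rw [← mul_assoc, hD1, mul_one]
  exact hp.one_lt.ne' (Nat.eq_one_of_mul_eq_one_left hjp)

end Fermat.Agent.F4G
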