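import Fermat.Agent.F4.Glob.FIRPrelim

/-!
# F4 / GLOB : the first inequality in ray form, modulus supported on `T` (FI)

`firstIneqRay_of : SecondIneqNorm → LocalNormProperAll → F4Rec.FirstIneqRay`.

`M/F` Galois of odd prime degree `p`, unramified outside `T ≠ ∅`.  Choose `S ⊇ T` generating the
class groups of `F` and `M` (`fir_exists_S`), a precision `k` (`fir_exists_k`), and put
`H = E_S · L_S(k)`: `[Fˣ : H] = p` (`normIndex_eq`).  The class map is

    cls I = rbCls(I)⁻¹ · ∏_{v ∈ S \ T} [y_v] ^ ord_v(I)        (in `Fˣ ⧸ H`)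

where `rbCls I` is the class of any `c` with `I = (c)` away from `S` (helper74's RayBridge) and
`y_v` is a uniformizer at `v` which is `≡ 1` at the other primes of `S`.  It has modulus
`∏_{v ∈ T} v ^ (k + 1)` because the units at `v ∈ S \ T` are local norms (ULN, `ULN.lean`).
-/

set_option autoImplicit false
set_option linter.unusedSectionVars false

open NumberField IsDedekindDomain FractionalIdeal
open scoped nonZeroDivisors

namespace Fermat.Agent.F4G

open Fermat.Agent.S14SI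

variable {F M : Type} [Field F] [NumberField F] [Field M] [NumberField M] [Algebra F M]

/-- The class map of modulus supported on `T`. -/
noncomputable def firCls (S : Set (HeightOneSpectrum (𝓞 F)))
    (D : Finset (HeightOneSpectrum (𝓞 F))) (H : Subgroup Fˣ)
    (y : HeightOneSpectrum (𝓞 F) → Fˣ) (I : Ideal (𝓞 F)) : Fˣ ⧸ H :=
  (rbCls F S H I)⁻¹ * ∏ v ∈ D,
    (QuotientGroup.mk (y v) : Fˣ ⧸ H) ^ (count F v (I : FractionalIdeal (𝓞 F)⁰ F))

theorem firCls_mul {S : Finset (HeightOneSpectrum (𝓞 F))}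
    (D : Finset (HeightOneSpectrum (𝓞 F))) (H : Subgroup Fˣ)
    (y : HeightOneSpectrum (𝓞 F) → Fˣ) (hgen : GeneratesClassGroup F S)
    (hE : sUnits F (S : Set (HeightOneSpectrum (𝓞 F))) ≤ H) {I J : Ideal (𝓞 F)}
    (hI : I ≠ ⊥) (hJ : J ≠ ⊥) :
    firCls (S : Set (HeightOneSpectrum (𝓞 F))) D H y (I * J) =
      firCls (S : Set (HeightOneSpectrum (𝓞 F))) D H y I *
        firCls (S : Set (HeightOneSpectrum (𝓞 F))) D H y J := by
  obtain ⟨cI, hcI⟩ := rb_exists_witness F hgen hI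
  obtain ⟨cJ, hcJ⟩ := rb_exists_witness F hgen hJ
  have h1 : rbCls F (S : Set (HeightOneSpectrum (𝓞 F))) H (I * J) =
      rbCls F (S : Set (HeightOneSpectrum (𝓞 F))) H I *
        rbCls F (S : Set (HeightOneSpectrum (𝓞 F))) H J := by
    rw [rbCls_eq hE hcI, rbCls_eq hE hcJ, rbCls_eq hE (c := cI * cJ) ?_]
    · rfl
    · intro v hv
      rw [coeIdeal_mul, count_mul F v (coeIdeal_ne_zero.mpr hI) (coeIdeal_ne_zero.mpr hJ),
        Units.val_mul, ← spanSingleton_mul_spanSingleton,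
        count_mul F v (spanSingleton_ne_zero_iff.mpr cI.ne_zero)
          (spanSingleton_ne_zero_iff.mpr cJ.ne_zero), hcI v hv, hcJ v hv]
  have h2 : ∀ v ∈ D, (QuotientGroup.mk (y v) : Fˣ ⧸ H) ^
      (count F v ((I * J : Ideal (𝓞 F)) : FractionalIdeal (𝓞 F)⁰ F)) =
      (QuotientGroup.mk (y v) : Fˣ ⧸ H) ^ (count F v (I : FractionalIdeal (𝓞 F)⁰ F)) *
        (QuotientGroup.mk (y v) : Fˣ ⧸ H) ^ (count F v (J : FractionalIdeal (𝓞 F)⁰ F)) := by
    intro v _
    rw [coeIdeal_mul, count_mul F v (coeIdeal_ne_zero.mpr hI) (coeIdeal_ne_zero.mpr hJ),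
      zpow_add]
  unfold firCls
  have e : (rbCls F (S : Set (HeightOneSpectrum (𝓞 F))) H I *
      rbCls F (S : Set (HeightOneSpectrum (𝓞 F))) H J)⁻¹ =
      (rbCls F (S : Set (HeightOneSpectrum (𝓞 F))) H I)⁻¹ *
        (rbCls F (S : Set (HeightOneSpectrum (𝓞 F))) H J)⁻¹ :=
    _root_.mul_inv (rbCls F (S : Set (HeightOneSpectrum (𝓞 F))) H I)
      (rbCls F (S : Set (HeightOneSpectrum (𝓞 F))) H J)
  rw [h1, e, Finset.prod_congr rfl h2, Finset.prod_mul_distrib]
  exact mul_mul_mul_comm (rbCls F (S : Set (HeightOneSpectrum (𝓞 F))) H I)⁻¹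
    (rbCls F (S : Set (HeightOneSpectrum (𝓞 F))) H J)⁻¹ _ _

/-- The key membership: an element which is `≡ 1` at `T` and whose orders at the primes of
`D = S \ T` are compensated by the `y_v` is a local norm at all primes of `S`. -/
theorem fir_mem_localNormsAt (S T D : Finset (HeightOneSpectrum (𝓞 F))) (k : ℕ)
    (hD : ∀ v, v ∈ D ↔ v ∈ S ∧ v ∉ T) (y : HeightOneSpectrum (𝓞 F) → Fˣ)
    (hYv : ∀ v ∈ D, v.valuation F (y v : F) = WithZero.exp (-1 : ℤ))
    (hYS : ∀ v ∈ D, ∀ v' ∈ S, v' ≠ v → y v ∈ oneModSubgroup F v' k)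
    (hULN : ∀ v ∈ D, ∀ x : Fˣ, v.valuation F (x : F) = 1 → x ∈ localNormGroup F M v k)
    (a : Fˣ) (haT : ∀ v ∈ T, v ∈ S → a ∈ oneModSubgroup F v k)
    (n : HeightOneSpectrum (𝓞 F) → ℤ)
    (hn : ∀ v ∈ D, v.valuation F (a : F) = WithZero.exp (-(n v))) :
    a⁻¹ * ∏ v ∈ D, y v ^ n v ∈ localNormsAt F M S k := by
  classical
  rw [mem_localNormsAt]
  intro v' hv'
  by_cases hT : v' ∈ T
  · apply oneModSubgroup_le_localNormGroup v' k
    refine Subgroup.mul_mem _ (Subgroup.inv_mem _ (haT v' hT hv')) ?_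
    refine Subgroup.prod_mem _ fun v hv => Subgroup.zpow_mem _ (hYS v hv v' hv' ?_) _
    rintro rfl
    exact ((hD v').mp hv).2 hT
  · have hv'D : v' ∈ D := (hD v').mpr ⟨hv', hT⟩
    rw [← Finset.mul_prod_erase D _ hv'D, ← mul_assoc]
    refine Subgroup.mul_mem _ (hULN v' hv'D _ ?_) ?_
    · rw [Units.val_mul, Units.val_inv_eq_inv_val, map_mul, map_inv₀, hn v' hv'D,
        Units.val_zpow_eq_zpow_val, map_zpow₀, hYv v' hv'D, ← WithZero.exp_zsmul,
        ← WithZero.exp_neg, ← WithZero.exp_add, ← WithZero.exp_zero]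
      congr 1
      simp only [smul_eq_mul]
      ring
    · apply oneModSubgroup_le_localNormGroup v' k
      refine Subgroup.prod_mem _ fun v hv => Subgroup.zpow_mem _ ?_ _
      exact hYS v (Finset.mem_of_mem_erase hv) v' hv' (Finset.ne_of_mem_erase hv).symm

theorem fir_modT_eq (T : Finset (HeightOneSpectrum (𝓞 F))) (k : ℕ) :
    F4Rec.modT T (k + 1) = rbMod F T k := rfl

theorem firCls_ray (S T D : Finset (HeightOneSpectrum (𝓞 F))) (k : ℕ) (H : Subgroup Fˣ)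
    (hE : sUnits F (S : Set (HeightOneSpectrum (𝓞 F))) ≤ H)
    (hL : localNormsAt F M S k ≤ H)
    (hD : ∀ v, v ∈ D ↔ v ∈ S ∧ v ∉ T) (y : HeightOneSpectrum (𝓞 F) → Fˣ)
    (hYv : ∀ v ∈ D, v.valuation F (y v : F) = WithZero.exp (-1 : ℤ))
    (hYS : ∀ v ∈ D, ∀ v' ∈ S, v' ≠ v → y v ∈ oneModSubgroup F v' k)
    (hULN : ∀ v ∈ D, ∀ x : Fˣ, v.valuation F (x : F) = 1 → x ∈ localNormGroup F M v k)
    {a : 𝓞 F} (ha : a ≠ 0) (h : a - 1 ∈ F4Rec.modT T (k + 1)) :
    firCls (S : Set (HeightOneSpectrum (𝓞 F))) D H y (Ideal.span {a}) = 1 := by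
  have ha' : (a : F) ≠ 0 := by exact_mod_cast ha
  set au : Fˣ := Units.mk0 (a : F) ha' with hau
  have h1 : rbCls F (S : Set (HeightOneSpectrum (𝓞 F))) H (Ideal.span {a}) =
      QuotientGroup.mk au :=
    rbCls_eq hE (c := au) (fun v _ => by rw [coeIdeal_span_singleton, Units.val_mk0])
  have h2 : ∏ v ∈ D, (QuotientGroup.mk (y v) : Fˣ ⧸ H) ^
      (count F v ((Ideal.span {a} : Ideal (𝓞 F)) : FractionalIdeal (𝓞 F)⁰ F)) =
      (QuotientGroup.mk (∏ v ∈ D, y v ^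
        (count F v ((Ideal.span {a} : Ideal (𝓞 F)) : FractionalIdeal (𝓞 F)⁰ F))) : Fˣ ⧸ H) := by
    rw [← QuotientGroup.mk'_apply, map_prod]
    exact Finset.prod_congr rfl fun v _ => (map_zpow (QuotientGroup.mk' H) _ _).symm
  have h3 : au⁻¹ * ∏ v ∈ D, y v ^
      (count F v ((Ideal.span {a} : Ideal (𝓞 F)) : FractionalIdeal (𝓞 F)⁰ F)) ∈ H := by
    apply hL
    refine fir_mem_localNormsAt S T D k hD y hYv hYS hULN au
      (fun v hv _ => rb_mem_oneModSubgroup k ha h hv) _ (fun v _ => ?_)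
    rw [hau, Units.val_mk0, valuation_eq_exp_neg_count v ha', coeIdeal_span_singleton]
  unfold firCls
  rw [h1, h2]
  exact (QuotientGroup.eq_one_iff _).mpr h3

theorem firCls_surj (S T D : Finset (HeightOneSpectrum (𝓞 F))) (k : ℕ) (H : Subgroup Fˣ)
    (y : HeightOneSpectrum (𝓞 F) → Fˣ) (hS : S.Nonempty) (hgen : GeneratesClassGroup F S)
    (hE : sUnits F (S : Set (HeightOneSpectrum (𝓞 F))) ≤ H)
    (hL : localNormsAt F M S k ≤ H) (hidx : H.index ≠ 0) (hDS : D ⊆ S) (hTS : T ⊆ S)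
    (g : Fˣ ⧸ H) :
    ∃ I : Ideal (𝓞 F), I ≠ ⊥ ∧ I ⊔ F4Rec.modT T (k + 1) = ⊤ ∧
      firCls (S : Set (HeightOneSpectrum (𝓞 F))) D H y I = g := by
  classical
  obtain ⟨I, hI0, hI, hIg⟩ := (rb_rayClassMap (M := M) S hS k H hgen hE hL hidx).surj g⁻¹
  have hle : rbMod F S k ≤ F4Rec.modT T (k + 1) :=
    Ideal.le_of_dvd (Finset.prod_dvd_prod_of_subset T S _ hTS)
  refine ⟨I, hI0, ?_, ?_⟩
  · rw [eq_top_iff, ← hI]
    exact sup_le_sup_left hle I
  · have h0 : ∀ v ∈ D, count F v (I : FractionalIdeal (𝓞 F)⁰ F) = 0 := by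
      intro v hv
      refine fir_count_eq_zero F hI0 v ?_
      rw [eq_top_iff, ← hI]
      exact sup_le_sup_left ((rbMod_le k (hDS hv)).trans (Ideal.pow_le_self (by omega))) I
    unfold firCls
    rw [hIg, Finset.prod_eq_one (fun v hv => by rw [h0 v hv, zpow_zero])]
    have e : (g⁻¹)⁻¹ = g := inv_inv g
    rw [e]
    exact mul_one g

theorem firCls_relNorm [IsGalois F M] {p : ℕ} (hp : p.Prime) (hdeg : Module.finrank F M = p)
    (S D : Finset (HeightOneSpectrum (𝓞 F))) (k : ℕ) (H : Subgroup Fˣ)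
    (y : HeightOneSpectrum (𝓞 F) → Fˣ)
    (hgenM : Subgroup.closure
      (primeClass M '' primesAboveSet F M (S : Set (HeightOneSpectrum (𝓞 F)))) = ⊤)
    (hE : sUnits F (S : Set (HeightOneSpectrum (𝓞 F))) ≤ H)
    (hL : localNormsAt F M S k ≤ H)
    (he : ∀ v ∈ D, ∀ w : HeightOneSpectrum (𝓞 M), primeBelow (F := F) w = v →
      w.asIdeal.ramificationIdx (𝓞 F) = 1)
    (hYH : ∀ v ∈ D, SplitsCompletely F M v → y v ∈ H)
    (hpow : ∀ g : Fˣ, g ^ p ∈ H) (A : Ideal (𝓞 M)) (hA : A ≠ ⊥) :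
    firCls (S : Set (HeightOneSpectrum (𝓞 F))) D H y (Ideal.relNorm (𝓞 F) A) = 1 := by
  have h1 : ∀ v ∈ D, (QuotientGroup.mk (y v) : Fˣ ⧸ H) ^
      (count F v ((Ideal.relNorm (𝓞 F) A : Ideal (𝓞 F)) : FractionalIdeal (𝓞 F)⁰ F)) = 1 := by
    intro v hv
    by_cases hs : SplitsCompletely F M v
    · rw [(QuotientGroup.eq_one_iff _).mpr (hYH v hv hs)]
      exact one_zpow _
    · obtain ⟨m, hm⟩ := fir_dvd_count_relNorm hp hdeg hs (he v hv) A hA
      have e : (QuotientGroup.mk (y v) : Fˣ ⧸ H) ^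
          (count F v ((Ideal.relNorm (𝓞 F) A : Ideal (𝓞 F)) : FractionalIdeal (𝓞 F)⁰ F)) =
          (QuotientGroup.mk (y v ^
            (count F v ((Ideal.relNorm (𝓞 F) A : Ideal (𝓞 F)) :
              FractionalIdeal (𝓞 F)⁰ F))) : Fˣ ⧸ H) :=
        (map_zpow (QuotientGroup.mk' H) _ _).symm
      rw [e]
      refine (QuotientGroup.eq_one_iff _).mpr ?_
      have e2 : y v ^ ((p : ℤ) * m) = (y v ^ m) ^ p := by
        rw [mul_comm, zpow_mul, zpow_natCast]
      rw [hm, e2]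
      exact hpow _
  unfold firCls
  rw [rb_norm_cond S k H hgenM hE hL A hA, Finset.prod_eq_one h1]
  have e : (1 : Fˣ ⧸ H)⁻¹ = 1 := inv_one
  rw [e]
  exact mul_one 1

/-- **First inequality, ray form with modulus supported on `T`.** -/
theorem firstIneqRay_of (h2 : SecondIneqNorm) (hP : LocalNormProperAll) :
    F4Rec.FirstIneqRay := by
  intro p F M _ _ _ _ _ _ T hp hp2 hdeg hTne hT
  classical
  have : FiniteDimensional F M := by
    apply FiniteDimensional.of_finrank_pos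
    rw [hdeg]; exact hp.pos
  obtain ⟨S, hTS, hgen, hgenM⟩ := fir_exists_S (M := M) T
  obtain ⟨k, hprop⟩ := fir_exists_k hP hp hp2 hdeg S
  have hunrT := fir_ramificationIdx_eq_one hT
  have hunr : ∀ w : HeightOneSpectrum (𝓞 M),
      w ∉ primesAboveSet F M (S : Set (HeightOneSpectrum (𝓞 F))) →
      w.asIdeal.ramificationIdx (𝓞 F) = 1 := by
    intro w hw
    refine hunrT w (fun h => hw ?_)
    obtain ⟨v, hv, hwv⟩ := h
    exact ⟨v, hTS hv, hwv⟩
  have hSne : S.Nonempty := hTne.mono hTS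
  set H : Subgroup Fˣ := sUnits F (S : Set (HeightOneSpectrum (𝓞 F))) ⊔ localNormsAt F M S k
    with hH
  have hE : sUnits F (S : Set (HeightOneSpectrum (𝓞 F))) ≤ H := le_sup_left
  have hL : localNormsAt F M S k ≤ H := le_sup_right
  have hidx : H.index = p := normIndex_eq h2 hp hp2 hdeg S k hunr hgen hgenM hprop
  have hidx0 : H.index ≠ 0 := by rw [hidx]; exact hp.ne_zero
  set D : Finset (HeightOneSpectrum (𝓞 F)) := S \ T with hDdef
  have hD : ∀ v, v ∈ D ↔ v ∈ S ∧ v ∉ T := fun v => Finset.mem_sdiff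
  have hDS : D ⊆ S := Finset.sdiff_subset
  -- unramified above `D`
  have he : ∀ v ∈ D, ∀ w : HeightOneSpectrum (𝓞 M), primeBelow (F := F) w = v →
      w.asIdeal.ramificationIdx (𝓞 F) = 1 := by
    intro v hv w hw
    refine hunrT w ?_
    rw [mem_primesAboveSet_iff, hw]
    exact ((hD v).mp hv).2
  -- ULN
  have hULN : ∀ v ∈ D, ∀ x : Fˣ, v.valuation F (x : F) = 1 → x ∈ localNormGroup F M v k := by
    intro v hv x hx
    by_cases hs : SplitsCompletely F M v
    · rw [localNormGroup_eq_top_of_splitsCompletely h2 hp hp2 hdeg S k hunr hgen hgenM hprop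
        (hDS hv) hs]
      trivial
    · obtain ⟨w, hw⟩ := exists_primeBelow_eq (M := M) v
      exact unit_mem_localNormGroup h2 hp hp2 hdeg S k hunr hgen hgenM hprop (hDS hv) hs w hw
        (he v hv w hw) hx
  -- the elements `y_v`
  have hy : ∀ v : HeightOneSpectrum (𝓞 F), ∃ y : Fˣ, v ∈ S →
      (v.valuation F (y : F) = WithZero.exp (-1 : ℤ) ∧
        ∀ v' ∈ S, v' ≠ v → y ∈ oneModSubgroup F v' k) := by
    intro v
    by_cases hv : v ∈ S
    · obtain ⟨y, h1, h2⟩ := fir_exists_y S k v hv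
      exact ⟨y, fun _ => ⟨h1, h2⟩⟩
    · exact ⟨1, fun h => absurd h hv⟩
  choose y hy using hy
  have hYv : ∀ v ∈ D, v.valuation F (y v : F) = WithZero.exp (-1 : ℤ) :=
    fun v hv => (hy v (hDS hv)).1
  have hYS : ∀ v ∈ D, ∀ v' ∈ S, v' ≠ v → y v ∈ oneModSubgroup F v' k :=
    fun v hv => (hy v (hDS hv)).2
  have hYH : ∀ v ∈ D, SplitsCompletely F M v → y v ∈ H := by
    intro v hv hs
    apply hL
    rw [mem_localNormsAt]
    intro v' hv'
    by_cases h : v' = v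
    · rw [h, localNormGroup_eq_top_of_splitsCompletely h2 hp hp2 hdeg S k hunr hgen hgenM hprop
        (hDS hv) hs]
      trivial
    · exact oneModSubgroup_le_localNormGroup v' k (hYS v hv v' hv' h)
  have hpow : ∀ g : Fˣ, g ^ p ∈ H := fun g => hL (pow_mem_localNormsAt S k hdeg g)
  have hfi : H.FiniteIndex := ⟨hidx0⟩
  have hfin : Finite (Fˣ ⧸ H) := Subgroup.finite_quotient_of_finiteIndex
  have hmod_ne_top : F4Rec.modT T (k + 1) ≠ ⊤ := rbMod_ne_top k hTne
  have hne_bot : ∀ I : Ideal (𝓞 F), I ⊔ F4Rec.modT T (k + 1) = ⊤ → I ≠ ⊥ := by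
    rintro I hI rfl
    rw [bot_sup_eq] at hI
    exact hmod_ne_top hI
  refine ⟨k + 1, Fˣ ⧸ H, inferInstance, Fintype.ofFinite _,
    firCls (S : Set (HeightOneSpectrum (𝓞 F))) D H y, by omega, ⟨?_, ?_, ?_, ?_⟩, ?_, ?_⟩
  · exact rbMod_ne_bot T k
  · intro I J hI hJ
    exact firCls_mul D H y hgen hE (hne_bot I hI) (hne_bot J hJ)
  · intro a ha h
    exact firCls_ray (M := M) S T D k H hE hL hD y hYv hYS hULN ha h
  · intro g
    exact firCls_surj (M := M) S T D k H y hSne hgen hE hL hidx0 hDS hTS g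
  · intro A hA _
    exact firCls_relNorm hp hdeg S D k H y hgenM hE hL he hYH hpow A hA
  · rw [Fintype.card_eq_nat_card, ← Subgroup.index_eq_card, hidx]
    exact hp.one_lt

end Fermat.Agent.F4G
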