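import Mathlib

/-!
# F4 / GLOB : two lemmas on subgroups of abelian groups with quotient of exponent `p`
-/

set_option autoImplicit false

namespace Fermat.Agent.F4G

/-- A nonzero vector of an `𝔽_p`-vector space is detected by an additive map to `𝔽_p`. -/
lemma exists_addMonoidHom_ne_zero (p : ℕ) [Fact p.Prime] {V : Type*} [AddCommGroup V]
    [Module (ZMod p) V] {v : V} (hv : v ≠ 0) : ∃ f : V →+ ZMod p, f v ≠ 0 := by
  obtain ⟨φ, hφ⟩ := Module.Projective.exists_dual_ne_zero (ZMod p) hv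
  exact ⟨φ.toAddMonoidHom, hφ⟩

/-- If `G / A` has exponent `p` and `x ∉ A`, there is a subgroup of index `p` containing `A` and
not containing `x`. -/
lemma exists_index_prime_of_notMem {G : Type*} [CommGroup G] (A : Subgroup G) {p : ℕ}
    (hp : p.Prime) (hpow : ∀ g : G, g ^ p ∈ A) {x : G} (hx : x ∉ A) :
    ∃ H : Subgroup G, A ≤ H ∧ x ∉ H ∧ H.index = p := by
  have : Fact p.Prime := ⟨hp⟩
  have hmod : ∀ v : Additive (G ⧸ A), p • v = 0 := by
    intro v
    obtain ⟨g, hg⟩ := QuotientGroup.mk_surjective (Additive.toMul v)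
    have h1 : ((g : G ⧸ A)) ^ p = 1 := by
      rw [← QuotientGroup.mk_pow]
      exact (QuotientGroup.eq_one_iff _).mpr (hpow g)
    have h2 : v = Additive.ofMul (g : G ⧸ A) := by rw [hg]; rfl
    rw [h2, ← ofMul_pow, h1]
    rfl
  have hx0 : Additive.ofMul ((x : G ⧸ A)) ≠ 0 := by
    intro h
    have : ((x : G ⧸ A)) = 1 := h
    exact hx ((QuotientGroup.eq_one_iff x).mp this)
  obtain ⟨φ, hφ⟩ := @exists_addMonoidHom_ne_zero p _ (Additive (G ⧸ A)) _
    (AddCommGroup.zmodModule (n := p) hmod) _ hx0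
  let ψ : G →* Multiplicative (ZMod p) :=
    (AddMonoidHom.toMultiplicativeRight φ).comp (QuotientGroup.mk' A)
  have hψ : ∀ g : G, ψ g = Multiplicative.ofAdd (φ (Additive.ofMul (g : G ⧸ A))) := fun _ => rfl
  refine ⟨ψ.ker, ?_, ?_, ?_⟩
  · intro g hg
    rw [MonoidHom.mem_ker, hψ]
    have : ((g : G ⧸ A)) = 1 := (QuotientGroup.eq_one_iff g).mpr hg
    rw [this]
    have h0 : Additive.ofMul (1 : G ⧸ A) = 0 := rfl
    rw [h0, map_zero]
    rfl
  · intro hxk
    rw [MonoidHom.mem_ker, hψ] at hxk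
    exact hφ (Multiplicative.ofAdd.injective hxk)
  · rw [Subgroup.index_ker]
    have hcard : Nat.card (Multiplicative (ZMod p)) = p := by
      rw [Nat.card_eq_fintype_card, Fintype.card_multiplicative, ZMod.card]
    have hdvd : Nat.card ψ.range ∣ p := by
      have h := Subgroup.card_subgroup_dvd_card ψ.range
      exact h.trans (dvd_of_eq hcard)
    rcases (Nat.dvd_prime hp).mp hdvd with h1 | h1
    · exfalso
      have hbot : ψ.range = ⊥ := Subgroup.card_eq_one.mp h1
      have hmem : ψ x ∈ ψ.range := ⟨x, rfl⟩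
      rw [hbot, Subgroup.mem_bot, hψ] at hmem
      exact hφ (Multiplicative.ofAdd.injective hmem)
    · exact h1

/-- Two distinct subgroups of prime index `p` meet in a subgroup of index `p ^ 2`. -/
lemma index_inf_of_index_prime {G : Type*} [CommGroup G] {H₁ H₂ : Subgroup G} {p : ℕ}
    (hp : p.Prime) (h1 : H₁.index = p) (h2 : H₂.index = p) (hne : H₁ ≠ H₂) :
    (H₁ ⊓ H₂).index = p ^ 2 := by
  -- `H₁ ⊔ H₂ = ⊤`
  have hsup : H₁ ⊔ H₂ = ⊤ := by
    by_contra hcon
    have hle : H₂ ≤ H₁ ⊔ H₂ := le_sup_right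
    have hdvd : (H₁ ⊔ H₂).index ∣ H₂.index := Subgroup.index_dvd_of_le hle
    rw [h2] at hdvd
    rcases (Nat.dvd_prime hp).mp hdvd with h | h
    · exact hcon (Subgroup.index_eq_one.mp h)
    · -- then `H₂ = H₁ ⊔ H₂`, and symmetrically `H₁ = H₁ ⊔ H₂`
      have e2 : H₂ = H₁ ⊔ H₂ := by
        have := Subgroup.relIndex_mul_index hle
        rw [h, h2] at this
        have h3 : H₂.relIndex (H₁ ⊔ H₂) = 1 := by
          have hp0 := hp.pos
          exact Nat.eq_of_mul_eq_mul_right hp0 (by rw [this, one_mul])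
        exact le_antisymm hle (Subgroup.relIndex_eq_one.mp h3)
      have hle1 : H₁ ≤ H₁ ⊔ H₂ := le_sup_left
      have e1 : H₁ = H₁ ⊔ H₂ := by
        have := Subgroup.relIndex_mul_index hle1
        rw [h, h1] at this
        have h3 : H₁.relIndex (H₁ ⊔ H₂) = 1 := by
          have hp0 := hp.pos
          exact Nat.eq_of_mul_eq_mul_right hp0 (by rw [this, one_mul])
        exact le_antisymm hle1 (Subgroup.relIndex_eq_one.mp h3)
      exact hne (e1.trans e2.symm)
  have hrel : (H₁ ⊓ H₂).relIndex H₂ = p := by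
    rw [Subgroup.inf_relIndex_right, ← Subgroup.relIndex_sup_right, sup_comm, hsup,
      Subgroup.relIndex_top_right, h1]
  have := Subgroup.relIndex_mul_index (inf_le_right : H₁ ⊓ H₂ ≤ H₂)
  rw [hrel, h2] at this
  rw [← this, sq]

end Fermat.Agent.F4G
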