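import Fermat.Agent.F4.Glob.NormDefs
import Fermat.Agent.F4.Ray.Defs

/-!
# F4 / GLOB : finite-level norm index statements — interfaces (`Prop`s)

Language of `S14/SI` and `F4/Glob/NormDefs.lean`: `M/F` number fields, `S` a finite set of primes
of `F`, `E_S = sUnits F S`, `L = localNormsAt F M S k` (local norms to precision `k` at all
`v ∈ S`).  The quotient `Fˣ / (E_S · L)` is the finite-level form of `C_S(F) / N C_S(M)`
(`= J_F / Fˣ N J_M` when `S` contains the ramified primes and generates the class groups of `F`
and of `M`).

    FirstIneq (D4, `firstIneq_norm`)   ⟸ LocalNormProper at the non-split primes     (FirstIneq.lean)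
    SecondIneqNorm                      ⟸ SecondIneqRay (helper56, F4/Ray)            (RayBridge.lean)
    HasseNorm (D6)                      ⟸ SecondIneqNorm + LocalNormProper            (Hasse.lean)
-/

set_option autoImplicit false

open NumberField IsDedekindDomain

namespace Fermat.Agent.F4G

open Fermat.Agent.S14SI

/-- **Local input (LOC)**: for a Galois extension `M/F` of prime degree `p` and a prime `v` of `F`
which does not split completely in `M`, the local norm group `N(Mˣ) · U_v^{(k+1)}` is a proper
subgroup of `Fˣ` for some precision `k`.
(Unramified `v`: valuations, `k = 0`.  Tamely ramified `v`: `S14SI.LocalNormProper`, `k = 0`.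
Wildly ramified `v ∣ p`: local norm index theorem + density.) -/
def LocalNormProperAll : Prop :=
  ∀ (p : ℕ) (F M : Type) [Field F] [NumberField F] [Field M] [NumberField M] [Algebra F M]
    [IsGalois F M] (v : HeightOneSpectrum (𝓞 F)),
    p.Prime → p ≠ 2 → Module.finrank F M = p → ¬ SplitsCompletely F M v →
    ∃ k : ℕ, localNormGroup F M v k ≠ ⊤

/-- **Second inequality, finite-level norm form**: if `S` generates the class group of `F` and the
primes of `M` above `S` generate the class group of `M`, every subgroup of finite index of `Fˣ`
containing the `S`-units and the local norms at `S` (to precision `k`) has index `≤ [M : F]`.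
(From `F4Ray.SecondIneqRay` with the modulus `∏_{v ∈ S} v ^ (k + 1)` and
`cls I = class of a`, where `I = (a)` away from `S`.) -/
def SecondIneqNorm : Prop :=
  ∀ (F M : Type) [Field F] [NumberField F] [Field M] [NumberField M] [Algebra F M]
    [IsGalois F M] (S : Finset (HeightOneSpectrum (𝓞 F))) (k : ℕ) (H : Subgroup Fˣ),
    GeneratesClassGroup F S →
    Subgroup.closure (primeClass M '' primesAboveSet F M (S : Set (HeightOneSpectrum (𝓞 F)))) = ⊤ →
    sUnits F (S : Set (HeightOneSpectrum (𝓞 F))) ≤ H → localNormsAt F M S k ≤ H →
    H.index ≠ 0 → H.index ≤ Module.finrank F M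

end Fermat.Agent.F4G
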