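import Fermat.Agent.F4.Glob.FirstIneq
import Fermat.Agent.F4.Glob.Interface
import Fermat.Agent.F4.Glob.GroupLemmas

/-!
# F4 / GLOB : the norm index is `p`, and the Hasse norm theorem, at finite level (D6)

`M/F` Galois of odd prime degree `p`, unramified outside the finite set `S` of primes of `F`;
`S` generates the class group of `F` and the primes above `S` generate the class group of `M`;
the local norm groups (precision `k`) at the non-split primes of `S` are proper.  Then, from the
second inequality `SecondIneqNorm`: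

* `normIndex_eq`  : `[Fˣ : E_S · L] = p`                       (`|C_S(F) / N C_S(M)| = p`);
* `hasseNorm`     : `E_S ∩ L = N(E_{M,S})`                      (`H¹(Gal(M/F), C_S(M)) = 0`):
  an `S`-unit which is a local norm at every prime of `S` is the norm of an `S`-unit of `M`.
-/

set_option autoImplicit false

open NumberField IsDedekindDomain

namespace Fermat.Agent.F4G

open Fermat.Agent.S14SI

variable {F M : Type} [Field F] [NumberField F] [Field M] [NumberField M] [Algebra F M]
  [IsGalois F M]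

/-- **The norm index is `p`**: `[Fˣ : E_S · L] = p`. -/
theorem normIndex_eq (h2 : SecondIneqNorm) {p : ℕ} (hp : p.Prime) (hp2 : p ≠ 2)
    (hdeg : Module.finrank F M = p) (S : Finset (HeightOneSpectrum (𝓞 F))) (k : ℕ)
    (hunr : ∀ w : HeightOneSpectrum (𝓞 M),
      w ∉ primesAboveSet F M (S : Set (HeightOneSpectrum (𝓞 F))) →
      w.asIdeal.ramificationIdx (𝓞 F) = 1)
    (hgen : GeneratesClassGroup F S)
    (hgenM : Subgroup.closure
      (primeClass M '' primesAboveSet F M (S : Set (HeightOneSpectrum (𝓞 F)))) = ⊤)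
    (hprop : ∀ v ∈ S, ¬ SplitsCompletely F M v → localNormGroup F M v k ≠ ⊤) :
    (sUnits F (S : Set (HeightOneSpectrum (𝓞 F))) ⊔ localNormsAt F M S k).index = p := by
  have : FiniteDimensional F M := by
    apply FiniteDimensional.of_finrank_pos
    rw [hdeg]; exact hp.pos
  set A := sUnits F (S : Set (HeightOneSpectrum (𝓞 F))) ⊔ localNormsAt F M S k with hA
  have hAtop : A ≠ ⊤ := firstIneq_norm hp hp2 hdeg S k hunr hgen hprop
  have hpowA : ∀ g : Fˣ, g ^ p ∈ A := fun g =>
    Subgroup.mem_sup_right (pow_mem_localNormsAt S k hdeg g)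
  obtain ⟨x, hx⟩ : ∃ x : Fˣ, x ∉ A := by
    by_contra hcon
    simp only [not_exists, not_not] at hcon
    exact hAtop (top_le_iff.mp fun y _ => hcon y)
  obtain ⟨H, hAH, -, hH⟩ := exists_index_prime_of_notMem A hp hpowA hx
  have hHA : H ≤ A := by
    by_contra hcon
    obtain ⟨y, hyH, hyA⟩ := SetLike.not_le_iff_exists.mp hcon
    obtain ⟨H', hAH', hyH', hH'⟩ := exists_index_prime_of_notMem A hp hpowA hyA
    have hne : H ≠ H' := fun h => hyH' (h ▸ hyH)
    have hidx := index_inf_of_index_prime hp hH hH' hne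
    have hle := h2 F M S k (H ⊓ H') hgen hgenM
      (le_inf (le_sup_left.trans hAH) (le_sup_left.trans hAH'))
      (le_inf (le_sup_right.trans hAH) (le_sup_right.trans hAH'))
      (by rw [hidx]; exact pow_ne_zero _ hp.ne_zero)
    rw [hidx, hdeg] at hle
    have : p * p ≤ p * 1 := by rw [mul_one, ← sq]; exact hle
    have := Nat.le_of_mul_le_mul_left this hp.pos
    exact absurd hp.one_lt (not_lt.mpr this)
  rw [le_antisymm hAH hHA]
  exact hH

/-- **The Hasse norm theorem at finite level**: an `S`-unit of `F` which is a local norm (to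
precision `k`) at every prime of `S` is the norm of an `S`-unit of `M`. -/
theorem hasseNorm (h2 : SecondIneqNorm) {p : ℕ} (hp : p.Prime) (hp2 : p ≠ 2)
    (hdeg : Module.finrank F M = p) (S : Finset (HeightOneSpectrum (𝓞 F))) (k : ℕ)
    (hunr : ∀ w : HeightOneSpectrum (𝓞 M),
      w ∉ primesAboveSet F M (S : Set (HeightOneSpectrum (𝓞 F))) →
      w.asIdeal.ramificationIdx (𝓞 F) = 1)
    (hgen : GeneratesClassGroup F S)
    (hgenM : Subgroup.closure
      (primeClass M '' primesAboveSet F M (S : Set (HeightOneSpectrum (𝓞 F)))) = ⊤)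
    (hprop : ∀ v ∈ S, ¬ SplitsCompletely F M v → localNormGroup F M v k ≠ ⊤) :
    sUnits F (S : Set (HeightOneSpectrum (𝓞 F))) ⊓ localNormsAt F M S k ≤
      (sUnits M (primesAboveSet F M (S : Set (HeightOneSpectrum (𝓞 F))))).map
        (normUnits F M) := by
  classical
  have : FiniteDimensional F M := by
    apply FiniteDimensional.of_finrank_pos
    rw [hdeg]; exact hp.pos
  set E := sUnits F (S : Set (HeightOneSpectrum (𝓞 F))) with hE
  set L := localNormsAt F M S k with hL
  set NE := (sUnits M (primesAboveSet F M (S : Set (HeightOneSpectrum (𝓞 F))))).map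
    (normUnits F M) with hNE
  set T0 := S.filter (fun v => ¬ SplitsCompletely F M v) with hT0
  set W := localNormsAt F M T0 k with hW
  have hLW : L ≤ W := fun y hy =>
    mem_localNormsAt.mpr fun v hv => mem_localNormsAt.mp hy v (Finset.mem_filter.mp hv).1
  have hidx : (E ⊔ L).index = p :=
    normIndex_eq h2 hp hp2 hdeg S k hunr hgen hgenM hprop
  -- D1
  have hD1 := sUnits_norm_relIndex hp hp2 hdeg (S : Set (HeightOneSpectrum (𝓞 F)))
    S.finite_toSet hunr hgen
  have ht : {v | v ∈ (S : Set (HeightOneSpectrum (𝓞 F))) ∧ ¬ SplitsCompletely F M v}.ncard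
      = T0.card := by
    have : {v | v ∈ (S : Set (HeightOneSpectrum (𝓞 F))) ∧ ¬ SplitsCompletely F M v} = ↑T0 := by
      ext v
      simp [hT0]
    rw [this, Set.ncard_coe_finset]
  rw [ht] at hD1
  have hNE0 : NE.relIndex E ≠ 0 := sUnits_norm_relIndex_ne_zero hp hp2 hdeg _ S.finite_toSet
  -- `NE ≤ E ⊓ L`
  have hNEE : NE ≤ E := map_normUnits_sUnits_le hp hdeg _
  have hNEL : NE ≤ L := by
    rintro y ⟨z, -, rfl⟩
    exact normUnits_mem_localNormsAt S k z
  have hNEEL : NE ≤ E ⊓ L := le_inf hNEE hNEL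
  -- `b * a = [E : NE]`
  have hba : NE.relIndex (E ⊓ L) * L.relIndex E = NE.relIndex E := by
    rw [← Subgroup.inf_relIndex_left (H := E) (K := L)]
    exact Subgroup.relIndex_mul_relIndex _ _ _ hNEEL inf_le_left
  have ha0 : L.relIndex E ≠ 0 := fun h => hNE0 (by rw [← hba, h, mul_zero])
  -- `[Fˣ : L] = a * p`
  have hLidx : L.index = L.relIndex E * p := by
    rw [← Subgroup.relIndex_mul_index (le_sup_right : L ≤ E ⊔ L), hidx,
      Subgroup.relIndex_sup_right]
  have hL0 : L.index ≠ 0 := by
    rw [hLidx]; exact mul_ne_zero ha0 hp.ne_zero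
  have hWL : W.index ∣ L.index := Subgroup.index_dvd_of_le hLW
  have hW0 : W.index ≠ 0 := fun h => hL0 (by rw [h] at hWL; exact zero_dvd_iff.mp hWL)
  have hchain : p ^ T0.card ∣ W.index :=
    pow_card_dvd_index_localNormsAt hp hdeg T0 k
      (fun v hv => hprop v (Finset.mem_filter.mp hv).1 (Finset.mem_filter.mp hv).2) hW0
  have hdvd : p ^ T0.card ∣ L.relIndex E * p := hLidx ▸ hchain.trans hWL
  rw [← hD1, ← hba] at hdvd
  -- `b * a * p ∣ a * p`, so `b = 1`
  have hb : NE.relIndex (E ⊓ L) = 1 := by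
    have hap : L.relIndex E * p ≠ 0 := mul_ne_zero ha0 hp.ne_zero
    rw [mul_assoc] at hdvd
    have h1 : NE.relIndex (E ⊓ L) * (L.relIndex E * p) ∣ 1 * (L.relIndex E * p) := by
      rwa [one_mul]
    exact Nat.dvd_one.mp (Nat.dvd_of_mul_dvd_mul_right (Nat.pos_of_ne_zero hap) h1)
  exact Subgroup.relIndex_eq_one.mp hb

end Fermat.Agent.F4G
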