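import Fermat.Agent.F4.Datum
import Fermat.Agent.F4.Cf.Final
import Fermat.Agent.F4.Loc.Datum.Pack

/-!
# F4 / Glob / Main : existence of the global datum (wired: GLOB `F4/Cf/Final.lean` + LOC `F4/Loc/Datum/Pack.lean`)

Final deliverable of the number-theory side of S55: local and global class field theory mod `p`
for `G_S`, in the cohomological form of `F4/Datum.lean`.  See `NOTES/F4-dictionary.md`.
-/

set_option autoImplicit false

open CategoryTheory groupCohomology ExtCitation

namespace Fermat.Agent.F4

variable {p : ℕ} [Fact p.Prime]

/-- **Number theory**: local packs (LOC, helper87) + class formation, reciprocity, assembly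
(GLOB, helper53). -/
theorem exists_globalDatum (hp2 : p ≠ 2) (S : Finset Nat.Primes) (hpS : pPrime p ∈ S) :
    Nonempty (GlobalDatum p S) :=
  Fermat.Agent.F4Cf.exists_globalDatum_of_locPack hp2 hpS
    (fun φ hφ q => Fermat.Agent.F4.Loc.nonempty_locPack hpS φ hφ q)

end Fermat.Agent.F4
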