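import Fermat.Agent.F4.Glob.Hasse
import Fermat.Agent.F4.Glob.LocalProper

/-!
# F4 / GLOB : unramified local norms (ULN), from the two inequalities

`M/F` Galois of odd prime degree `p`, `S ⊇ Ram` a finite set of primes of `F` generating the class
group of `F` and such that the primes above `S` generate the class group of `M`; the local norm
groups `N(Mˣ) · U_v^{(k+1)}` at the non-split primes `v ∈ S` are proper.  Then the second
inequality (`normIndex_eq`) and the norm index of the `S`-units give `[Fˣ : L_S] ∣ p ^ t`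
(`t` = number of non-split primes of `S`), and the chain argument of the first inequality forces

* `localNormGroup_eq_top_of_splitsCompletely` : at a split prime `v ∈ S` every element of `Fˣ` is a
  local norm (to precision `k`);
* `unit_mem_localNormGroup` : at an inert prime `v ∈ S` every `v`-unit is a local norm.
-/

set_option autoImplicit false

open NumberField IsDedekindDomain

namespace Fermat.Agent.F4G

open Fermat.Agent.S14SI

variable {F M : Type} [Field F] [NumberField F] [Field M] [NumberField M] [Algebra F M]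
  [IsGalois F M]

/-- `[Fˣ : L_S]` divides `p ^ t`, `t` the number of non-split primes in `S`. -/
theorem index_localNormsAt_mul (h2 : SecondIneqNorm) {p : ℕ} (hp : p.Prime) (hp2 : p ≠ 2)
    (hdeg : Module.finrank F M = p) (S : Finset (HeightOneSpectrum (𝓞 F))) (k : ℕ)
    (hunr : ∀ w : HeightOneSpectrum (𝓞 M),
      w ∉ primesAboveSet F M (S : Set (HeightOneSpectrum (𝓞 F))) →
      w.asIdeal.ramificationIdx (𝓞 F) = 1)
    (hgen : GeneratesClassGroup F S)
    (hgenM : Subgroup.closure
      (primeClass M '' primesAboveSet F M (S : Set (HeightOneSpectrum (𝓞 F)))) = ⊤)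
    (hprop : ∀ v ∈ S, ¬ SplitsCompletely F M v → localNormGroup F M v k ≠ ⊤) :
    ∃ j : ℕ, (localNormsAt F M S k).index * j =
      p ^ {v | v ∈ (S : Set (HeightOneSpectrum (𝓞 F))) ∧ ¬ SplitsCompletely F M v}.ncard := by
  set E := sUnits F (S : Set (HeightOneSpectrum (𝓞 F))) with hE
  set L := localNormsAt F M S k with hL
  set NE := (sUnits M (primesAboveSet F M (S : Set (HeightOneSpectrum (𝓞 F))))).map
    (normUnits F M) with hNE
  have hidx : (E ⊔ L).index = p := normIndex_eq h2 hp hp2 hdeg S k hunr hgen hgenM hprop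
  have hD1 := sUnits_norm_relIndex hp hp2 hdeg (S : Set (HeightOneSpectrum (𝓞 F)))
    S.finite_toSet hunr hgen
  have hNL : NE ≤ L := by
    rintro y ⟨z, -, rfl⟩
    exact normUnits_mem_localNormsAt S k z
  obtain ⟨j, hj⟩ : L.relIndex E ∣ NE.relIndex E := Subgroup.relIndex_dvd_of_le_left E hNL
  have h1 : L.relIndex (E ⊔ L) = L.relIndex E := Subgroup.relIndex_sup_right E L
  have h3 : L.relIndex (E ⊔ L) * (E ⊔ L).index = L.index :=
    Subgroup.relIndex_mul_index le_sup_right
  refine ⟨j, ?_⟩
  rw [← hD1, ← h3, h1, hidx, hj]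
  ring

/-- The index of the group of local norms at `S` is finite. -/
theorem index_localNormsAt_ne_zero (h2 : SecondIneqNorm) {p : ℕ} (hp : p.Prime) (hp2 : p ≠ 2)
    (hdeg : Module.finrank F M = p) (S : Finset (HeightOneSpectrum (𝓞 F))) (k : ℕ)
    (hunr : ∀ w : HeightOneSpectrum (𝓞 M),
      w ∉ primesAboveSet F M (S : Set (HeightOneSpectrum (𝓞 F))) →
      w.asIdeal.ramificationIdx (𝓞 F) = 1)
    (hgen : GeneratesClassGroup F S)
    (hgenM : Subgroup.closure
      (primeClass M '' primesAboveSet F M (S : Set (HeightOneSpectrum (𝓞 F)))) = ⊤)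
    (hprop : ∀ v ∈ S, ¬ SplitsCompletely F M v → localNormGroup F M v k ≠ ⊤) :
    (localNormsAt F M S k).index ≠ 0 := by
  obtain ⟨j, hj⟩ := index_localNormsAt_mul h2 hp hp2 hdeg S k hunr hgen hgenM hprop
  intro h
  rw [h, zero_mul] at hj
  exact (pow_pos hp.pos _).ne' hj.symm

/-- **ULN, split case**: at a prime `v ∈ S` which splits completely every element of `Fˣ` is a
local norm to precision `k`. -/
theorem localNormGroup_eq_top_of_splitsCompletely (h2 : SecondIneqNorm) {p : ℕ} (hp : p.Prime)
    (hp2 : p ≠ 2) (hdeg : Module.finrank F M = p) (S : Finset (HeightOneSpectrum (𝓞 F))) (k : ℕ)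
    (hunr : ∀ w : HeightOneSpectrum (𝓞 M),
      w ∉ primesAboveSet F M (S : Set (HeightOneSpectrum (𝓞 F))) →
      w.asIdeal.ramificationIdx (𝓞 F) = 1)
    (hgen : GeneratesClassGroup F S)
    (hgenM : Subgroup.closure
      (primeClass M '' primesAboveSet F M (S : Set (HeightOneSpectrum (𝓞 F)))) = ⊤)
    (hprop : ∀ v ∈ S, ¬ SplitsCompletely F M v → localNormGroup F M v k ≠ ⊤)
    {v : HeightOneSpectrum (𝓞 F)} (hv : v ∈ S) (hs : SplitsCompletely F M v) :
    localNormGroup F M v k = ⊤ := by
  classical
  have : FiniteDimensional F M := by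
    apply FiniteDimensional.of_finrank_pos
    rw [hdeg]; exact hp.pos
  by_contra hne
  obtain ⟨j, hj⟩ := index_localNormsAt_mul h2 hp hp2 hdeg S k hunr hgen hgenM hprop
  have hS0 := index_localNormsAt_ne_zero h2 hp hp2 hdeg S k hunr hgen hgenM hprop
  set T0 := S.filter (fun v => ¬ SplitsCompletely F M v) with hT0
  have ht : {v | v ∈ (S : Set (HeightOneSpectrum (𝓞 F))) ∧ ¬ SplitsCompletely F M v}.ncard
      = T0.card := by
    have : {v | v ∈ (S : Set (HeightOneSpectrum (𝓞 F))) ∧ ¬ SplitsCompletely F M v} = ↑T0 := by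
      ext v
      simp [hT0]
    rw [this, Set.ncard_coe_finset]
  rw [ht] at hj
  have hv0 : v ∉ T0 := by
    simp [hT0, hs]
  set R := insert v T0 with hR
  have hRS : R ⊆ S := by
    intro v' hv'
    rcases Finset.mem_insert.mp hv' with rfl | h
    · exact hv
    · exact (Finset.mem_filter.mp h).1
  have hLR : localNormsAt F M S k ≤ localNormsAt F M R k := fun y hy =>
    mem_localNormsAt.mpr fun v' hv' => mem_localNormsAt.mp hy v' (hRS hv')
  have hdvd : (localNormsAt F M R k).index ∣ (localNormsAt F M S k).index :=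
    Subgroup.index_dvd_of_le hLR
  have hR0 : (localNormsAt F M R k).index ≠ 0 := fun h => hS0 (by
    rw [h] at hdvd; exact zero_dvd_iff.mp hdvd)
  have hpow := pow_card_dvd_index_localNormsAt hp hdeg R k (fun v' hv' => by
    rcases Finset.mem_insert.mp hv' with rfl | h
    · exact hne
    · exact hprop v' (Finset.mem_filter.mp h).1 (Finset.mem_filter.mp h).2) hR0
  rw [Finset.card_insert_of_notMem hv0] at hpow
  have h4 : p ^ (T0.card + 1) ∣ p ^ T0.card := hpow.trans (hdvd.trans ⟨j, hj.symm⟩)
  exact absurd ((Nat.pow_dvd_pow_iff_le_right hp.one_lt).mp h4) (by omega)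

/-- The valuation of a local norm at an unramified non-split prime is `exp (p * n)`. -/
lemma valuation_of_mem_localNormGroup_of_unramified {p : ℕ} (hp : p.Prime)
    (hdeg : Module.finrank F M = p) {v : HeightOneSpectrum (𝓞 F)}
    (hns : ¬ SplitsCompletely F M v) (w : HeightOneSpectrum (𝓞 M))
    (hw : primeBelow (F := F) w = v) (he : w.asIdeal.ramificationIdx (𝓞 F) = 1) {k : ℕ}
    {y : Fˣ} (hy : y ∈ localNormGroup F M v k) :
    ∃ n : ℤ, v.valuation F (y : F) = WithZero.exp ((p : ℤ) * n) := by
  obtain ⟨z, hz⟩ := mem_localNormGroup.mp hy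
  have h1 := valuation_eq_one_of_mem_oneModSubgroup hz
  have hlo : w.asIdeal.LiesOver v.asIdeal := ⟨by rw [← hw]; rfl⟩
  have h2 := td_valuation_norm' hp hdeg hns w (z : M)
  rw [Ideal.ramificationIdx'_eq_ramificationIdx v.asIdeal w.asIdeal v.ne_bot, he, pow_one] at h2
  have hwz : w.valuation M (z : M) ≠ 0 := (Valuation.ne_zero_iff _).mpr z.ne_zero
  refine ⟨WithZero.log (w.valuation M (z : M)), ?_⟩
  have hN0 : v.valuation F (Algebra.norm F (z : M)) ≠ 0 := by
    rw [h2]
    exact pow_ne_zero _ hwz
  have h3 : v.valuation F (y : F) = v.valuation F (Algebra.norm F (z : M)) := by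
    rw [Units.val_div_eq_div_val, map_div₀] at h1
    have e : ((normUnits F M z : Fˣ) : F) = Algebra.norm F (z : M) := rfl
    rw [e] at h1
    exact (div_eq_one_iff_eq hN0).mp h1
  rw [h3, h2]
  conv_lhs => rw [← WithZero.exp_log hwz]
  rw [← WithZero.exp_nsmul, nsmul_eq_mul]

/-- **ULN, inert case**: at a non-split unramified prime `v ∈ S` every `v`-unit is a local norm
to precision `k`. -/
theorem unit_mem_localNormGroup (h2 : SecondIneqNorm) {p : ℕ} (hp : p.Prime)
    (hp2 : p ≠ 2) (hdeg : Module.finrank F M = p) (S : Finset (HeightOneSpectrum (𝓞 F))) (k : ℕ)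
    (hunr : ∀ w : HeightOneSpectrum (𝓞 M),
      w ∉ primesAboveSet F M (S : Set (HeightOneSpectrum (𝓞 F))) →
      w.asIdeal.ramificationIdx (𝓞 F) = 1)
    (hgen : GeneratesClassGroup F S)
    (hgenM : Subgroup.closure
      (primeClass M '' primesAboveSet F M (S : Set (HeightOneSpectrum (𝓞 F)))) = ⊤)
    (hprop : ∀ v ∈ S, ¬ SplitsCompletely F M v → localNormGroup F M v k ≠ ⊤)
    {v : HeightOneSpectrum (𝓞 F)} (hv : v ∈ S) (hns : ¬ SplitsCompletely F M v)
    (w : HeightOneSpectrum (𝓞 M)) (hw : primeBelow (F := F) w = v)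
    (he : w.asIdeal.ramificationIdx (𝓞 F) = 1) {x : Fˣ} (hx : v.valuation F (x : F) = 1) :
    x ∈ localNormGroup F M v k := by
  classical
  have : FiniteDimensional F M := by
    apply FiniteDimensional.of_finrank_pos
    rw [hdeg]; exact hp.pos
  by_contra hxN
  obtain ⟨π, hπ⟩ := v.valuation_exists_uniformizer F
  have hπ0 : π ≠ 0 := by
    rintro rfl
    rw [map_zero] at hπ
    exact WithZero.exp_ne_zero hπ.symm
  set πu : Fˣ := Units.mk0 π hπ0 with hπu
  set N := localNormGroup F M v k with hN
  set B1 := N ⊔ Subgroup.zpowers x with hB1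
  set B2 := N ⊔ Subgroup.zpowers πu with hB2
  have hval : ∀ y ∈ N, ∃ n : ℤ, v.valuation F (y : F) = WithZero.exp ((p : ℤ) * n) :=
    fun y hy => valuation_of_mem_localNormGroup_of_unramified hp hdeg hns w hw he hy
  have hπB1 : πu ∉ B1 := by
    intro h
    obtain ⟨n, hn, c, hc, hnc⟩ := Subgroup.mem_sup.mp h
    obtain ⟨i, rfl⟩ := Subgroup.mem_zpowers_iff.mp hc
    obtain ⟨m, hm⟩ := hval n hn
    have h1 : v.valuation F (πu : F) = WithZero.exp ((p : ℤ) * m) := by
      rw [← hnc, Units.val_mul, map_mul, hm, Units.val_zpow_eq_zpow_val, map_zpow₀, hx, one_zpow,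
        mul_one]
    rw [hπu, Units.val_mk0, hπ, WithZero.exp_inj] at h1
    have h3 : (p : ℤ) ∣ 1 := ⟨-m, by linarith⟩
    have h4 : p ∣ 1 := by exact_mod_cast h3
    exact hp.one_lt.ne' (Nat.dvd_one.mp h4)
  have hxB2 : x ∉ B2 := by
    intro h
    obtain ⟨n, hn, c, hc, hnc⟩ := Subgroup.mem_sup.mp h
    obtain ⟨i, rfl⟩ := Subgroup.mem_zpowers_iff.mp hc
    obtain ⟨m, hm⟩ := hval n hn
    have h1 : v.valuation F (x : F) = WithZero.exp ((p : ℤ) * m - i) := by
      rw [← hnc, Units.val_mul, map_mul, hm, Units.val_zpow_eq_zpow_val, map_zpow₀, hπu,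
        Units.val_mk0, hπ, ← WithZero.exp_zsmul, ← WithZero.exp_add]
      congr 1
      simp only [smul_eq_mul]
      ring
    rw [hx, ← WithZero.exp_zero, WithZero.exp_inj] at h1
    have hi : i = (p : ℤ) * m := by linarith
    apply hxN
    rw [← hnc, hi]
    refine Subgroup.mul_mem _ hn ?_
    rw [mul_comm, zpow_mul, zpow_natCast]
    exact pow_mem_localNormGroup v k hdeg (πu ^ m)
  -- the family of subgroups
  obtain ⟨j, hj⟩ := index_localNormsAt_mul h2 hp hp2 hdeg S k hunr hgen hgenM hprop
  have hS0 := index_localNormsAt_ne_zero h2 hp hp2 hdeg S k hunr hgen hgenM hprop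
  set T0 := S.filter (fun v => ¬ SplitsCompletely F M v) with hT0
  have ht : {v | v ∈ (S : Set (HeightOneSpectrum (𝓞 F))) ∧ ¬ SplitsCompletely F M v}.ncard
      = T0.card := by
    have : {v | v ∈ (S : Set (HeightOneSpectrum (𝓞 F))) ∧ ¬ SplitsCompletely F M v} = ↑T0 := by
      ext v
      simp [hT0]
    rw [this, Set.ncard_coe_finset]
  rw [ht] at hj
  have hvT0 : v ∈ T0 := Finset.mem_filter.mpr ⟨hv, hns⟩
  have hpropT : ∀ v' ∈ T0, localNormGroup F M v' k ≠ ⊤ := fun v' hv' =>
    hprop v' (Finset.mem_filter.mp hv').1 (Finset.mem_filter.mp hv').2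
  set L' : Option (HeightOneSpectrum (𝓞 F)) → Subgroup Fˣ := fun o =>
    o.elim B1 (fun v' => if v' = v then B2 else localNormGroup F M v' k) with hL'
  have hL'none : L' none = B1 := rfl
  have hL'v : L' (some v) = B2 := by simp [hL']
  have hL'ne : ∀ v', v' ≠ v → L' (some v') = localNormGroup F M v' k := fun v' h => by
    simp [hL', h]
  set R' : Finset (Option (HeightOneSpectrum (𝓞 F))) := Finset.insertNone T0 with hR'
  have hcard : R'.card = T0.card + 1 := Finset.card_insertNone T0
  have hNB1 : N ≤ B1 := le_sup_left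
  have hNB2 : N ≤ B2 := le_sup_left
  -- the infimum contains the local norms at `T0`
  have hle : localNormsAt F M T0 k ≤ R'.inf L' := by
    intro y hy
    rw [mem_finset_inf_subgroup]
    intro o ho
    cases o with
    | none => exact hNB1 (mem_localNormsAt.mp hy v hvT0)
    | some v' =>
      have hv' : v' ∈ T0 := Finset.some_mem_insertNone.mp ho
      by_cases h : v' = v
      · rw [h, hL'v]
        exact hNB2 (mem_localNormsAt.mp hy v hvT0)
      · rw [hL'ne v' h]
        exact mem_localNormsAt.mp hy v' hv'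
  have hLS : localNormsAt F M S k ≤ localNormsAt F M T0 k := fun y hy =>
    mem_localNormsAt.mpr fun v' hv' => mem_localNormsAt.mp hy v' (Finset.mem_filter.mp hv').1
  have hdvd : (R'.inf L').index ∣ (localNormsAt F M S k).index :=
    Subgroup.index_dvd_of_le (hLS.trans hle)
  have hR0 : (R'.inf L').index ≠ 0 := fun h => hS0 (by
    rw [h] at hdvd; exact zero_dvd_iff.mp hdvd)
  -- approximations
  obtain ⟨y1, hy1⟩ := exists_approx T0 (fun v' => if v' = v then πu else 1) k
  obtain ⟨y2, hy2⟩ := exists_approx T0 (fun v' => if v' = v then x else 1) k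
  have hy1v : y1 / πu ∈ N := by
    have := hy1 v hvT0
    simp only [if_true] at this
    exact oneModSubgroup_le_localNormGroup v k this
  have hy2v : y2 / x ∈ N := by
    have := hy2 v hvT0
    simp only [if_true] at this
    exact oneModSubgroup_le_localNormGroup v k this
  have hy1ne : ∀ v' ∈ T0, v' ≠ v → y1 ∈ localNormGroup F M v' k := by
    intro v' hv' hne
    have := hy1 v' hv'
    simp only [if_neg hne, div_one] at this
    exact oneModSubgroup_le_localNormGroup v' k this
  have hy2ne : ∀ v' ∈ T0, v' ≠ v → y2 ∈ localNormGroup F M v' k := by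
    intro v' hv' hne
    have := hy2 v' hv'
    simp only [if_neg hne, div_one] at this
    exact oneModSubgroup_le_localNormGroup v' k this
  have hy1B2 : y1 ∈ B2 := by
    have e : y1 = y1 / πu * πu := by rw [div_mul_cancel]
    rw [e]
    exact Subgroup.mul_mem _ (hNB2 hy1v) (Subgroup.mem_sup_right (Subgroup.mem_zpowers πu))
  have hy1B1 : y1 ∉ B1 := by
    intro h
    apply hπB1
    have e : πu = (y1 / πu)⁻¹ * y1 := by rw [inv_div, div_mul_cancel]
    rw [e]
    exact Subgroup.mul_mem _ (Subgroup.inv_mem _ (hNB1 hy1v)) h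
  have hy2B1 : y2 ∈ B1 := by
    have e : y2 = y2 / x * x := by rw [div_mul_cancel]
    rw [e]
    exact Subgroup.mul_mem _ (hNB1 hy2v) (Subgroup.mem_sup_right (Subgroup.mem_zpowers x))
  have hy2B2 : y2 ∉ B2 := by
    intro h
    apply hxB2
    have e : x = (y2 / x)⁻¹ * y2 := by rw [inv_div, div_mul_cancel]
    rw [e]
    exact Subgroup.mul_mem _ (Subgroup.inv_mem _ (hNB2 hy2v)) h
  have hchain : p ^ R'.card ∣ (R'.inf L').relIndex ⊤ := by
    refine pow_card_dvd_relIndex_finsetInf hp ⊤ L' R' ?_ ?_ ?_
    · intro o ho g _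
      cases o with
      | none => exact hNB1 (pow_mem_localNormGroup v k hdeg g)
      | some v' =>
        by_cases h : v' = v
        · rw [h, hL'v]
          exact hNB2 (pow_mem_localNormGroup v k hdeg g)
        · rw [hL'ne v' h]
          exact pow_mem_localNormGroup v' k hdeg g
    · rw [Subgroup.relIndex_top_right]
      exact hR0
    · intro o ho
      cases o with
      | none =>
        refine ⟨y1, Subgroup.mem_top _, hy1B1, ?_⟩
        intro o' ho' hne
        cases o' with
        | none => exact absurd rfl hne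
        | some v' =>
          have hv' : v' ∈ T0 := Finset.some_mem_insertNone.mp ho'
          by_cases h : v' = v
          · rw [h, hL'v]
            exact hy1B2
          · rw [hL'ne v' h]
            exact hy1ne v' hv' h
      | some v₁ =>
        have hv₁ : v₁ ∈ T0 := Finset.some_mem_insertNone.mp ho
        by_cases h₁ : v₁ = v
        · refine ⟨y2, Subgroup.mem_top _, by rw [h₁, hL'v]; exact hy2B2, ?_⟩
          intro o' ho' hne
          cases o' with
          | none => exact hy2B1
          | some v' =>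
            have hv' : v' ∈ T0 := Finset.some_mem_insertNone.mp ho'
            have h : v' ≠ v := fun h => hne (by rw [h, h₁])
            rw [hL'ne v' h]
            exact hy2ne v' hv' h
        · obtain ⟨y, hyn, hyo⟩ := exists_not_mem_localNormGroup (M := M) T0 k hv₁
            (hpropT v₁ hv₁)
          refine ⟨y, Subgroup.mem_top _, by rw [hL'ne v₁ h₁]; exact hyn, ?_⟩
          intro o' ho' hne
          have hyv : y ∈ N := hyo v hvT0 (fun h => h₁ h.symm)
          cases o' with
          | none => exact hNB1 hyv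
          | some v' =>
            have hv' : v' ∈ T0 := Finset.some_mem_insertNone.mp ho'
            by_cases h : v' = v
            · rw [h, hL'v]
              exact hNB2 hyv
            · rw [hL'ne v' h]
              exact hyo v' hv' (fun h' => hne (by rw [h']))
  rw [Subgroup.relIndex_top_right, hcard] at hchain
  have h4 : p ^ (T0.card + 1) ∣ p ^ T0.card := hchain.trans (hdvd.trans ⟨j, hj.symm⟩)
  exact absurd ((Nat.pow_dvd_pow_iff_le_right hp.one_lt).mp h4) (by omega)

end Fermat.Agent.F4G
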